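/-
N4 block d (abstract part), file 2: a noetherian local domain `S` with a prime element `π` such that
`S / π` is a principal ideal ring (e.g. a discrete valuation ring: `S` is then a regular local ring of
dimension two) is a unique factorisation domain; every prime ideal not containing `π` is principal.

(The trick replacing "regular ⟹ factorial": for a prime `P ∌ π` lift a generator `x` of the image of
`P` in `S / π`; then `P = x S + π P`, and Nakayama gives `P = x S`.)
-/
import Mathlib

set_option autoImplicit false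

namespace Fermat.Agent.N4.Cover.LocalUFD

variable {S : Type*} [CommRing S] [IsDomain S] [IsNoetherianRing S] [IsLocalRing S]
variable {π : S}

omit [IsDomain S] in
/-- A prime ideal not containing `π` is principal, generated by any lift of a generator of its image
in `S / π`. -/
theorem isPrincipal_of_prime (hπ : ¬ IsUnit π)
    (hPID : IsPrincipalIdealRing (S ⧸ Ideal.span {π})) (P : Ideal S) [P.IsPrime] (hP : π ∉ P) :
    ∃ x ∈ P, P = Ideal.span {x} := by
  set q := Ideal.Quotient.mk (Ideal.span {π}) with hq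
  have hsurj : Function.Surjective q := Ideal.Quotient.mk_surjective
  obtain ⟨xb, hxb⟩ := (hPID.principal (P.map q)).principal
  have hxbmem : xb ∈ P.map q := by rw [hxb]; exact Submodule.mem_span_singleton_self xb
  obtain ⟨x, hxP, hx⟩ := (Ideal.mem_map_iff_of_surjective q hsurj).1 hxbmem
  refine ⟨x, hxP, le_antisymm ?_ ((Ideal.span_singleton_le_iff_mem _).2 hxP)⟩
  -- Nakayama
  refine Submodule.le_of_le_smul_of_le_jacobson_bot (I := Ideal.span {π})
    (IsNoetherian.noetherian P) ?_ ?_
  · rw [IsLocalRing.jacobson_eq_maximalIdeal _ bot_ne_top, Ideal.span_singleton_le_iff_mem]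
    exact (IsLocalRing.mem_maximalIdeal _).2 hπ
  · intro y hy
    have hyq : q y ∈ P.map q := Ideal.mem_map_of_mem q hy
    rw [hxb] at hyq
    obtain ⟨zb, hzb⟩ := Submodule.mem_span_singleton.1 hyq
    obtain ⟨z, rfl⟩ := hsurj zb
    have h1 : q (y - z * x) = 0 := by
      rw [map_sub, map_mul, hx, ← hzb, smul_eq_mul, sub_self]
    rw [hq, Ideal.Quotient.eq_zero_iff_mem, Ideal.mem_span_singleton] at h1
    obtain ⟨y₁, hy₁⟩ := h1
    have hy₁P : y₁ ∈ P := by
      have : π * y₁ ∈ P := by
        rw [← hy₁]; exact P.sub_mem hy (P.mul_mem_left z hxP)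
      exact (Ideal.IsPrime.mem_or_mem ‹_› this).resolve_left hP
    have hy2 : y = z * x + π * y₁ := by rw [← hy₁]; ring
    rw [hy2]
    refine Submodule.add_mem_sup (Ideal.mem_span_singleton.2 ⟨z, by ring⟩) ?_
    exact Submodule.smul_mem_smul (Ideal.mem_span_singleton_self π) hy₁P


/-- Such a ring is factorial (Kaplansky's criterion). -/
theorem uniqueFactorizationMonoid (hπ : Prime π)
    (hPID : IsPrincipalIdealRing (S ⧸ Ideal.span {π})) : UniqueFactorizationMonoid S := by
  rw [UniqueFactorizationMonoid.iff_exists_prime_mem_of_isPrime]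
  intro I hI hIp
  by_cases h : π ∈ I
  · exact ⟨π, h, hπ⟩
  · obtain ⟨x, hx, hIx⟩ := isPrincipal_of_prime hπ.not_isUnit hPID I h
    refine ⟨x, hx, ?_⟩
    have hx0 : x ≠ 0 := by
      rintro rfl
      apply hI
      rw [hIx]; simp
    rw [← Ideal.span_singleton_prime hx0, ← hIx]
    exact hIp


section PthPower

open UniqueFactorizationMonoid

variable {T : Type*} [CommRing T] [IsDomain T] [UniqueFactorizationMonoid T]

omit [IsDomain T] in
/-- In a UFD, an element all of whose prime multiplicities are divisible by `p` is associated to a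
`p`-th power. -/
theorem exists_associated_pow [NormalizationMonoid T] [DecidableEq T] {p : ℕ} {a : T} (ha : a ≠ 0)
    (h : ∀ x ∈ normalizedFactors a, p ∣ (normalizedFactors a).count x) :
    ∃ b : T, Associated a (b ^ p) := by
  obtain ⟨u, hu⟩ := Multiset.exists_smul_of_dvd_count _ h
  refine ⟨u.prod, ?_⟩
  have h1 := prod_normalizedFactors ha
  rw [hu, Multiset.prod_nsmul] at h1
  exact h1.symm

end PthPower


section PthPowerFrac

open UniqueFactorizationMonoid

variable {T : Type*} [CommRing T] [IsDomain T] [UniqueFactorizationMonoid T]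
variable {K : Type*} [Field K] [Algebra T K] [IsFractionRing T K]

/-- Key counting step: if `a * d * n ^ p = b * c * m ^ p`, the prime `x` divides neither `c` nor `d`
nor `b`, then `p` divides the multiplicity of `x` in `a`. -/
theorem dvd_count_of_eq [NormalizationMonoid T] [DecidableEq T] {p : ℕ} {x a b c d m n : T}
    (ha : a ≠ 0) (hb : b ≠ 0) (hn : n ≠ 0)
    (hm : m ≠ 0) (hc : ¬ x ∣ c) (hd : ¬ x ∣ d) (hxb : ¬ x ∣ b)
    (h : a * d * n ^ p = b * c * m ^ p) : p ∣ (normalizedFactors a).count x := by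
  have hc0 : c ≠ 0 := fun h0 => hc (h0 ▸ dvd_zero x)
  have hd0 : d ≠ 0 := fun h0 => hd (h0 ▸ dvd_zero x)
  have hcount0 : ∀ y : T, y ≠ 0 → ¬ x ∣ y → (normalizedFactors y).count x = 0 := by
    intro y hy hxy
    rw [Multiset.count_eq_zero]
    intro hmem
    exact hxy (dvd_of_mem_normalizedFactors hmem)
  have h1 := congrArg (fun y => (normalizedFactors y).count x) h
  beta_reduce at h1
  rw [normalizedFactors_mul (mul_ne_zero ha hd0) (pow_ne_zero p hn),
    normalizedFactors_mul ha hd0, normalizedFactors_pow,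
    normalizedFactors_mul (mul_ne_zero hb hc0) (pow_ne_zero p hm),
    normalizedFactors_mul hb hc0, normalizedFactors_pow] at h1
  simp only [Multiset.count_add, Multiset.count_nsmul, hcount0 c hc0 hc, hcount0 d hd0 hd,
    hcount0 b hb hxb, add_zero, zero_add] at h1
  have h2 : p ∣ (normalizedFactors a).count x + p * (normalizedFactors n).count x := by
    rw [h1]; exact dvd_mul_right _ _
  exact (Nat.dvd_add_left (dvd_mul_right _ _)).1 h2

/-- **Local `p`-th power criterion in a UFD.**  If at every prime `x` of `T` the element `f` of the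
fraction field is a unit at `x` times a `p`-th power, then `f` is a unit of `T` times a `p`-th power. -/
theorem exists_unit_mul_pow {p : ℕ} (hp : 0 < p) {f : K} (hf : f ≠ 0)
    (hloc : ∀ x : T, Prime x → ∃ c d m n : T, ¬ x ∣ c ∧ ¬ x ∣ d ∧ n ≠ 0 ∧
      f * algebraMap T K d * algebraMap T K n ^ p = algebraMap T K c * algebraMap T K m ^ p) :
    ∃ (u : Tˣ) (h : K), h ≠ 0 ∧ f = algebraMap T K u * h ^ p := by
  classical
  let _ := UniqueFactorizationMonoid.strongNormalizationMonoid (α := T)
  have hinj : Function.Injective (algebraMap T K) := IsFractionRing.injective T K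
  obtain ⟨a, ⟨b, hbmem⟩, hrel, hab⟩ := IsFractionRing.exists_reduced_fraction (A := T) f
  have hb0 : b ≠ 0 := nonZeroDivisors.ne_zero hbmem
  have hbK : algebraMap T K b ≠ 0 := fun h => hb0 (hinj (by rw [h, map_zero]))
  have hfab : f * algebraMap T K b = algebraMap T K a := by
    rw [← hab]; exact IsLocalization.mk'_spec K a ⟨b, hbmem⟩
  have ha0 : a ≠ 0 := by
    rintro rfl
    rw [map_zero] at hfab
    exact hf ((mul_eq_zero.1 hfab).resolve_right hbK)
  -- the equation in `T` at a prime `x`
  have key : ∀ x : T, Prime x → ∃ c d m n : T, ¬ x ∣ c ∧ ¬ x ∣ d ∧ n ≠ 0 ∧ m ≠ 0 ∧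
      a * d * n ^ p = b * c * m ^ p := by
    intro x hx
    obtain ⟨c, d, m, n, hc, hd, hn, h⟩ := hloc x hx
    have hd0 : d ≠ 0 := fun h0 => hd (h0 ▸ dvd_zero x)
    have heq : a * d * n ^ p = b * c * m ^ p := by
      apply hinj
      simp only [map_mul, map_pow]
      rw [← hfab]
      linear_combination (algebraMap T K b) * h
    refine ⟨c, d, m, n, hc, hd, hn, ?_, heq⟩
    rintro rfl
    rw [zero_pow hp.ne', mul_zero] at heq
    exact (mul_ne_zero (mul_ne_zero ha0 hd0) (pow_ne_zero p hn)) heq
  have hnotboth : ∀ x : T, Prime x → x ∣ a → x ∣ b → False := fun x hx h1 h2 =>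
    hx.not_isUnit (hrel h1 h2)
  -- multiplicities of `a`
  have hA : ∀ x ∈ normalizedFactors a, p ∣ (normalizedFactors a).count x := by
    intro x hxa
    have hx : Prime x := prime_of_normalized_factor x hxa
    obtain ⟨c, d, m, n, hc, hd, hn, hm, heq⟩ := key x hx
    exact dvd_count_of_eq ha0 hb0 hn hm hc hd
      (fun h2 => hnotboth x hx (dvd_of_mem_normalizedFactors hxa) h2) heq
  have hB : ∀ x ∈ normalizedFactors b, p ∣ (normalizedFactors b).count x := by
    intro x hxb
    have hx : Prime x := prime_of_normalized_factor x hxb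
    obtain ⟨c, d, m, n, hc, hd, hn, hm, heq⟩ := key x hx
    exact dvd_count_of_eq hb0 ha0 hm hn hd hc
      (fun h2 => hnotboth x hx h2 (dvd_of_mem_normalizedFactors hxb)) heq.symm
  obtain ⟨a₁, u₁, hu₁⟩ := exists_associated_pow ha0 hA
  obtain ⟨b₁, u₂, hu₂⟩ := exists_associated_pow hb0 hB
  have hb₁ : b₁ ≠ 0 := by
    rintro rfl
    rw [zero_pow hp.ne'] at hu₂
    exact hb0 (by simpa using hu₂)
  have ha₁ : a₁ ≠ 0 := by
    rintro rfl
    rw [zero_pow hp.ne'] at hu₁
    exact ha0 (by simpa using hu₁)
  have hb₁K : algebraMap T K b₁ ≠ 0 := fun h => hb₁ (hinj (by rw [h, map_zero]))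
  have ha₁K : algebraMap T K a₁ ≠ 0 := fun h => ha₁ (hinj (by rw [h, map_zero]))
  refine ⟨u₂ * u₁⁻¹, algebraMap T K a₁ / algebraMap T K b₁, div_ne_zero ha₁K hb₁K, ?_⟩
  have e1 : algebraMap T K a * algebraMap T K (u₁ : T) = algebraMap T K a₁ ^ p := by
    rw [← map_mul, hu₁, map_pow]
  have e2 : algebraMap T K b * algebraMap T K (u₂ : T) = algebraMap T K b₁ ^ p := by
    rw [← map_mul, hu₂, map_pow]
  have e3 : algebraMap T K ((u₁⁻¹ : Tˣ) : T) * algebraMap T K (u₁ : T) = 1 := by
    rw [← map_mul, Units.inv_mul, map_one]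
  have hgoal : f * algebraMap T K b₁ ^ p =
      algebraMap T K ↑u₂ * algebraMap T K ((u₁⁻¹ : Tˣ) : T) * algebraMap T K a₁ ^ p := by
    rw [← e2, ← e1]
    linear_combination (algebraMap T K ↑u₂) * hfab -
      (algebraMap T K a * algebraMap T K ↑u₂) * e3
  rw [Units.val_mul, map_mul, div_pow, ← mul_div_assoc, eq_div_iff (pow_ne_zero p hb₁K)]
  exact hgoal

end PthPowerFrac

end Fermat.Agent.N4.Cover.LocalUFD
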