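/-
N4 block d (abstract part), file 3: the local statement (LOC).

`S` a noetherian local domain, `π` a prime element with `S / π` a principal ideal domain (so `S` is
factorial, `LocalUFD`), `K = Frac S`.  Let `f, g ∈ Kˣ` with
* (vertical)   `g` a unit at `π` and `f / g ^ p ≡ 1` modulo `π` (in the localisation `S_(π)`),
* (horizontal) at every prime `x` of `S` not associated to `π`, `f` is a unit at `x` times a `p`-th power.
Then there is `η ∈ Kˣ` with `f / η ^ p ∈ Sˣ` and `η ≡ g` modulo `π S_(π)`.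
-/
import Mathlib
import Fermat.Agent.N4.Cover.LocalUFD

set_option autoImplicit false

namespace Fermat.Agent.N4.Cover.Local

open Fermat.Agent.N4.Cover.LocalUFD

section Lift

variable {S : Type*} [CommRing S] [IsDomain S] {π : S}

omit [IsDomain S] in
/-- Lifting a `p`-th root from the fraction field of `S / π` to `S`, when `S / π` is integrally closed. -/
theorem exists_lift_root (hπ : Prime π)
    (hic : haveI : (Ideal.span {π}).IsPrime := (Ideal.span_singleton_prime hπ.ne_zero).2 hπ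
      IsIntegrallyClosed (S ⧸ Ideal.span {π}))
    {p : ℕ} (hp : 0 < p) {a b c d u : S} (hb : ¬ π ∣ b) (hc : ¬ π ∣ c) (hcd : π ∣ c - d)
    (h : a ^ p * c = u * d * b ^ p) :
    ∃ ρ : S, π ∣ a - ρ * b ∧ π ∣ ρ ^ p - u := by
  have : (Ideal.span {π}).IsPrime := (Ideal.span_singleton_prime hπ.ne_zero).2 hπ
  have := hic
  set D := S ⧸ Ideal.span {π}
  set q : S →+* D := Ideal.Quotient.mk (Ideal.span {π}) with hq
  have hq0 : ∀ y : S, q y = 0 ↔ π ∣ y := fun y => by
    rw [hq, Ideal.Quotient.eq_zero_iff_mem, Ideal.mem_span_singleton]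
  have hqb : q b ≠ 0 := fun h0 => hb ((hq0 b).1 h0)
  have hqc : q c ≠ 0 := fun h0 => hc ((hq0 c).1 h0)
  have hqcd : q c = q d := by
    rw [← sub_eq_zero, ← map_sub]; exact (hq0 _).2 hcd
  have h1 : q a ^ p = q u * q b ^ p := by
    have := congrArg q h
    simp only [map_mul, map_pow] at this
    rw [← hqcd] at this
    have h2 : q a ^ p * q c = (q u * q b ^ p) * q c := by rw [this]; ring
    exact mul_right_cancel₀ hqc h2
  -- the fraction `q a / q b` is integral over `D`
  set E := FractionRing D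
  have hbE : algebraMap D E (q b) ≠ 0 := by
    intro h0
    exact hqb ((IsFractionRing.injective D E) (by rw [h0, map_zero]))
  have hx : (algebraMap D E (q a) / algebraMap D E (q b)) ^ p = algebraMap D E (q u) := by
    rw [div_pow, div_eq_iff (pow_ne_zero p hbE), ← map_pow (algebraMap D E),
      ← map_pow (algebraMap D E), ← map_mul, h1]
  obtain ⟨y, hy⟩ := IsIntegrallyClosed.exists_algebraMap_eq_of_isIntegral_pow (R := D) hp
    (x := algebraMap D E (q a) / algebraMap D E (q b)) (by rw [hx]; exact isIntegral_algebraMap)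
  obtain ⟨ρ, rfl⟩ := Ideal.Quotient.mk_surjective y
  have hy' : q a = q ρ * q b := by
    apply IsFractionRing.injective D E
    rw [map_mul]
    have := hy
    rw [eq_div_iff hbE] at this
    exact this.symm
  refine ⟨ρ, ?_, ?_⟩
  · rw [← hq0, map_sub, map_mul, hy', sub_self]
  · rw [← hq0, map_sub, map_pow, sub_eq_zero]
    have h3 : q ρ ^ p * q b ^ p = q u * q b ^ p := by rw [← mul_pow, ← hy', h1]
    exact mul_right_cancel₀ (pow_ne_zero p hqb) h3

end Lift


section Main

variable {S K : Type*} [CommRing S] [IsDomain S] [IsNoetherianRing S] [IsLocalRing S]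
  [Field K] [Algebra S K] [IsFractionRing S K] {π : S}

/-- **The local statement (LOC).** -/
theorem exists_local_root (hπ : Prime π) (hPID : IsPrincipalIdealRing (S ⧸ Ideal.span {π}))
    {p : ℕ} (hp : 0 < p) {f g : K} (hf : f ≠ 0)
    (hhor : ∀ x : S, Prime x → ¬ Associated x π → ∃ c d m n : S, ¬ x ∣ c ∧ ¬ x ∣ d ∧ n ≠ 0 ∧
      f * algebraMap S K d * algebraMap S K n ^ p = algebraMap S K c * algebraMap S K m ^ p)
    (hvert : ∃ c d m n : S, ¬ π ∣ c ∧ ¬ π ∣ m ∧ ¬ π ∣ n ∧ π ∣ c - d ∧
      g * algebraMap S K n = algebraMap S K m ∧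
      f * algebraMap S K d * algebraMap S K n ^ p = algebraMap S K c * algebraMap S K m ^ p) :
    ∃ (u : Sˣ) (η : K), η ≠ 0 ∧ f = algebraMap S K u * η ^ p ∧
      ∃ a b : S, ¬ π ∣ b ∧
        (η - g) * algebraMap S K b = algebraMap S K π * algebraMap S K a := by
  classical
  have hinj : Function.Injective (algebraMap S K) := IsFractionRing.injective S K
  have hne : ∀ {y : S}, y ≠ 0 → algebraMap S K y ≠ 0 := fun hy h0 =>
    hy (hinj (by rw [h0, map_zero]))
  have : (Ideal.span {π}).IsPrime := (Ideal.span_singleton_prime hπ.ne_zero).2 hπ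
  have := hPID
  have : UniqueFactorizationMonoid S := uniqueFactorizationMonoid hπ hPID
  have hic : IsIntegrallyClosed (S ⧸ Ideal.span {π}) := inferInstance
  obtain ⟨c, d, m, n, hc, hm, hn, hcd, hg, hfe⟩ := hvert
  have hd : ¬ π ∣ d := fun h => hc (by
    have := dvd_add hcd h
    rwa [sub_add_cancel] at this)
  have hn0 : n ≠ 0 := fun h0 => hn (h0 ▸ dvd_zero π)
  have hm0 : m ≠ 0 := fun h0 => hm (h0 ▸ dvd_zero π)
  have hc0 : c ≠ 0 := fun h0 => hc (h0 ▸ dvd_zero π)
  have hd0 : d ≠ 0 := fun h0 => hd (h0 ▸ dvd_zero π)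
  -- local conditions at all primes
  have hloc : ∀ x : S, Prime x → ∃ c d m n : S, ¬ x ∣ c ∧ ¬ x ∣ d ∧ n ≠ 0 ∧
      f * algebraMap S K d * algebraMap S K n ^ p = algebraMap S K c * algebraMap S K m ^ p := by
    intro x hx
    by_cases hxπ : Associated x π
    · exact ⟨c, d, m, n, fun h => hc (hxπ.dvd_iff_dvd_left.1 h),
        fun h => hd (hxπ.dvd_iff_dvd_left.1 h), hn0, hfe⟩
    · exact hhor x hx hxπ
  obtain ⟨u, η₀, hη₀, hfu⟩ := exists_unit_mul_pow hp hf hloc
  have hg0 : g ≠ 0 := by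
    rintro rfl
    rw [zero_mul] at hg
    exact hne hm0 hg.symm
  -- `w₀ = g / η₀` as a reduced fraction
  obtain ⟨a, ⟨b, hbmem⟩, hrel, hab⟩ := IsFractionRing.exists_reduced_fraction (A := S) (g / η₀)
  have hb0 : b ≠ 0 := nonZeroDivisors.ne_zero hbmem
  have hw : g / η₀ * algebraMap S K b = algebraMap S K a := by
    rw [← hab]; exact IsLocalization.mk'_spec K a ⟨b, hbmem⟩
  have ha0 : a ≠ 0 := by
    rintro rfl
    rw [map_zero] at hw
    exact div_ne_zero hg0 hη₀ ((mul_eq_zero.1 hw).resolve_right (hne hb0))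
  -- `η₀ * a = g * b`
  have e3 : η₀ * algebraMap S K a = g * algebraMap S K b := by
    rw [← hw]; field_simp
  -- the equation `a ^ p * c = u * d * b ^ p`
  have heq : a ^ p * c = u * d * b ^ p := by
    apply hinj
    simp only [map_mul, map_pow]
    have e1p : algebraMap S K a ^ p * η₀ ^ p = g ^ p * algebraMap S K b ^ p := by
      rw [← mul_pow, mul_comm, e3, mul_pow]
    have e2p : g ^ p * algebraMap S K n ^ p = algebraMap S K m ^ p := by rw [← mul_pow, hg]
    have hnz : η₀ ^ p * algebraMap S K n ^ p ≠ 0 :=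
      mul_ne_zero (pow_ne_zero p hη₀) (pow_ne_zero p (hne hn0))
    apply mul_right_cancel₀ hnz
    linear_combination (algebraMap S K c * algebraMap S K n ^ p) * e1p +
      (algebraMap S K b ^ p * algebraMap S K c) * e2p - (algebraMap S K b ^ p) * hfe +
      (algebraMap S K d * algebraMap S K n ^ p * algebraMap S K b ^ p) * hfu
  have hb : ¬ π ∣ b := by
    intro hπb
    have h1 : π ∣ a ^ p * c := by rw [heq]; exact dvd_mul_of_dvd_right (dvd_pow hπb hp.ne') _
    have h2 : π ∣ a := hπ.dvd_of_dvd_pow ((hπ.dvd_or_dvd h1).resolve_right hc)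
    exact hπ.not_isUnit (hrel h2 hπb)
  have ha : ¬ π ∣ a := by
    intro hπa
    have h1 : π ∣ (u : S) * d * b ^ p := by
      rw [← heq]; exact dvd_mul_of_dvd_left (dvd_pow hπa hp.ne') _
    rcases hπ.dvd_or_dvd h1 with h2 | h2
    · rcases hπ.dvd_or_dvd h2 with h3 | h3
      · exact hπ.not_isUnit (isUnit_of_dvd_unit h3 u.isUnit)
      · exact hd h3
    · exact hb (hπ.dvd_of_dvd_pow h2)
  obtain ⟨ρ, hρ1, hρ2⟩ := exists_lift_root hπ hic hp hb hc hcd heq
  -- `ρ` is a unit
  have hρu : IsUnit ρ := by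
    by_contra hnu
    have h1 : ρ ∈ IsLocalRing.maximalIdeal S := (IsLocalRing.mem_maximalIdeal _).2 hnu
    have h2 : π ∈ IsLocalRing.maximalIdeal S := (IsLocalRing.mem_maximalIdeal _).2 hπ.not_isUnit
    obtain ⟨s, hs⟩ := hρ2
    have h3 : (u : S) = ρ ^ p - π * s := by rw [← hs]; ring
    have h4 : (u : S) ∈ IsLocalRing.maximalIdeal S := by
      rw [h3]
      exact Ideal.sub_mem _ (Ideal.pow_mem_of_mem _ h1 p hp) (Ideal.mul_mem_right _ _ h2)
    exact (IsLocalRing.mem_maximalIdeal _).1 h4 u.isUnit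
  obtain ⟨ρ', rfl⟩ := hρu
  obtain ⟨s, hs⟩ := hρ1
  refine ⟨u * (ρ' ^ p)⁻¹, algebraMap S K ρ' * η₀, mul_ne_zero (hne ρ'.ne_zero) hη₀, ?_,
    -(m * s), n * a, ?_, ?_⟩
  · rw [hfu, Units.val_mul, map_mul, mul_pow]
    have : algebraMap S K (((ρ' ^ p)⁻¹ : Sˣ) : S) * algebraMap S K (ρ' : S) ^ p = 1 := by
      rw [← map_pow, ← map_mul, ← Units.val_pow_eq_pow_val, Units.inv_mul, map_one]
    linear_combination (-(algebraMap S K ↑u * η₀ ^ p)) * this
  · intro h
    rcases hπ.dvd_or_dvd h with h1 | h1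
    · exact hn h1
    · exact ha h1
  · have hs' : algebraMap S K a - algebraMap S K ρ' * algebraMap S K b =
        algebraMap S K π * algebraMap S K s := by
      rw [← map_mul, ← map_sub, hs, map_mul]
    simp only [map_mul, map_neg]
    linear_combination (algebraMap S K ↑ρ' * algebraMap S K n) * e3 +
      (algebraMap S K ↑ρ' * algebraMap S K b - algebraMap S K a) * hg -
      (algebraMap S K m) * hs'

end Main

end Fermat.Agent.N4.Cover.Local
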