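/-
N4 block d (abstract part), file 4: localising a chart at a closed point of its special fibre.

`R` a noetherian domain with fraction field `F`, `ϖ ∈ R` with `R / ϖ` a Dedekind domain which is not
a field, `𝔫` a maximal ideal of `R` containing `ϖ`.  Then the localisation `S = R_𝔫 ⊆ F` satisfies the
hypotheses of `LocalUFD` / `Local`: `ϖ` is a prime element of `S` and `S / ϖ` is a principal ideal ring.
-/
import Mathlib
import Fermat.Agent.N4.Cover.Local

set_option autoImplicit false

namespace Fermat.Agent.N4.Cover.Globalize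

universe u

section LocalHyps

variable {R F : Type*} [CommRing R] [IsDomain R] [Field F] [Algebra R F] [IsFractionRing R F]

/-- The localisation of `R` at the prime `𝔫`, as a subalgebra of the fraction field. -/
noncomputable abbrev locAt (𝔫 : Ideal R) [𝔫.IsPrime] : Subalgebra R F :=
  Localization.subalgebra.ofField F 𝔫.primeCompl 𝔫.primeCompl_le_nonZeroDivisors

theorem mem_locAt_iff (𝔫 : Ideal R) [𝔫.IsPrime] (x : F) :
    x ∈ locAt (F := F) 𝔫 ↔ ∃ a s : R, s ∉ 𝔫 ∧ x * algebraMap R F s = algebraMap R F a := by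
  constructor
  · rintro ⟨a, s, hs, rfl⟩
    refine ⟨a, s, hs, ?_⟩
    have : algebraMap R F s ≠ 0 := by
      intro h0
      have : s = 0 := (IsFractionRing.injective R F) (by rw [h0, map_zero])
      exact hs (this ▸ 𝔫.zero_mem)
    field_simp
  · rintro ⟨a, s, hs, h⟩
    refine ⟨a, s, hs, ?_⟩
    have : algebraMap R F s ≠ 0 := by
      intro h0
      have : s = 0 := (IsFractionRing.injective R F) (by rw [h0, map_zero])
      exact hs (this ▸ 𝔫.zero_mem)
    rw [← h]; field_simp

end LocalHyps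


section Hyps

variable {R F : Type*} [CommRing R] [IsDomain R] [IsNoetherianRing R] [Field F] [Algebra R F]
  [IsFractionRing R F]

theorem isLocalRing_locAt (𝔫 : Ideal R) [𝔫.IsPrime] : IsLocalRing (locAt (F := F) 𝔫) :=
  IsLocalization.AtPrime.isLocalRing (locAt (F := F) 𝔫) 𝔫

theorem isNoetherianRing_locAt (𝔫 : Ideal R) [𝔫.IsPrime] : IsNoetherianRing (locAt (F := F) 𝔫) :=
  IsLocalization.isNoetherianRing 𝔫.primeCompl _ inferInstance

/-- The image of the complement of `𝔫` in `R / I` is the complement of the image of `𝔫`, `I ≤ 𝔫`. -/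
theorem algebraMapSubmonoid_primeCompl (I 𝔫 : Ideal R) [𝔫.IsPrime] (hI : I ≤ 𝔫)
    [(𝔫.map (Ideal.Quotient.mk I)).IsPrime] :
    Algebra.algebraMapSubmonoid (R ⧸ I) 𝔫.primeCompl =
      (𝔫.map (Ideal.Quotient.mk I)).primeCompl := by
  ext x
  obtain ⟨r, rfl⟩ := Ideal.Quotient.mk_surjective x
  have hmem : Ideal.Quotient.mk I r ∈ 𝔫.map (Ideal.Quotient.mk I) ↔ r ∈ 𝔫 := by
    rw [Ideal.mem_map_iff_of_surjective _ Ideal.Quotient.mk_surjective]
    constructor
    · rintro ⟨r', hr', h⟩
      have : r' - r ∈ I := by rw [← Ideal.Quotient.eq]; exact h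
      have h2 : r = r' - (r' - r) := by ring
      rw [h2]
      exact 𝔫.sub_mem hr' (hI this)
    · intro hr
      exact ⟨r, hr, rfl⟩
  constructor
  · rintro ⟨r', hr', h⟩
    show Ideal.Quotient.mk I r ∉ 𝔫.map (Ideal.Quotient.mk I)
    rw [hmem]
    intro hr
    have h' : Ideal.Quotient.mk I r' = Ideal.Quotient.mk I r := h
    have : r' - r ∈ I := by rw [← Ideal.Quotient.eq]; exact h'
    have h2 : r' = r + (r' - r) := by ring
    exact hr' (h2 ▸ 𝔫.add_mem hr (hI this))
  · intro hx
    have hx' : Ideal.Quotient.mk I r ∉ 𝔫.map (Ideal.Quotient.mk I) := hx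
    rw [hmem] at hx'
    exact ⟨r, hx', rfl⟩


/-- **The local hypotheses.** -/
theorem prime_and_pid (ϖ : R) (hϖ0 : ϖ ≠ 0) (hD : IsDedekindDomain (R ⧸ Ideal.span {ϖ}))
    (hnf : ¬ IsField (R ⧸ Ideal.span {ϖ})) (𝔫 : Ideal R) [h𝔫max : 𝔫.IsMaximal] (h𝔫 : ϖ ∈ 𝔫) :
    Prime (algebraMap R (locAt (F := F) 𝔫) ϖ) ∧
      IsPrincipalIdealRing
        (locAt (F := F) 𝔫 ⧸ Ideal.span {algebraMap R (locAt (F := F) 𝔫) ϖ}) := by
  set I : Ideal R := Ideal.span {ϖ} with hI
  set S := locAt (F := F) 𝔫 with hS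
  haveI := hD
  have hI𝔫 : I ≤ 𝔫 := (Ideal.span_singleton_le_iff_mem _).2 h𝔫
  have hmap : I.map (algebraMap R S) = Ideal.span {algebraMap R S ϖ} := by
    rw [hI, Ideal.map_span, Set.image_singleton]
  -- the image of `𝔫` in the quotient is a nonzero maximal ideal
  have hmax : (𝔫.map (Ideal.Quotient.mk I)).IsMaximal := by
    rcases Ideal.map_eq_top_or_isMaximal_of_surjective (Ideal.Quotient.mk I)
      Ideal.Quotient.mk_surjective h𝔫max with h | h
    · exfalso
      have h1 : (1 : R ⧸ I) ∈ 𝔫.map (Ideal.Quotient.mk I) := by rw [h]; trivial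
      rw [← map_one (Ideal.Quotient.mk I),
        Ideal.mem_map_iff_of_surjective _ Ideal.Quotient.mk_surjective] at h1
      obtain ⟨r, hr, hr1⟩ := h1
      have : r - 1 ∈ I := by rw [← Ideal.Quotient.eq]; exact hr1
      have h2 : (1 : R) = r - (r - 1) := by ring
      exact h𝔫max.ne_top ((Ideal.eq_top_iff_one _).2 (h2 ▸ 𝔫.sub_mem hr (hI𝔫 this)))
    · exact h
  haveI := hmax.isPrime
  have hne : 𝔫.map (Ideal.Quotient.mk I) ≠ ⊥ := Ring.ne_bot_of_isMaximal_of_not_isField hmax hnf
  -- the quotient of the localisation is the localisation of the quotient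
  haveI hloc : IsLocalization.AtPrime (S ⧸ I.map (algebraMap R S))
      (𝔫.map (Ideal.Quotient.mk I)) := by
    have h0 : IsLocalization (Algebra.algebraMapSubmonoid (R ⧸ I) 𝔫.primeCompl)
        (S ⧸ I.map (algebraMap R S)) := inferInstance
    rw [algebraMapSubmonoid_primeCompl I 𝔫 hI𝔫] at h0
    exact h0
  haveI : IsDomain (S ⧸ I.map (algebraMap R S)) :=
    IsLocalization.isDomain_of_le_nonZeroDivisors (R := R ⧸ I) (S ⧸ I.map (algebraMap R S))
      (Ideal.primeCompl_le_nonZeroDivisors (𝔫.map (Ideal.Quotient.mk I)))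
  have hdvr : IsDiscreteValuationRing (S ⧸ I.map (algebraMap R S)) :=
    IsLocalization.AtPrime.isDiscreteValuationRing_of_dedekind_domain (R ⧸ I) hne _
  have hϖS : algebraMap R S ϖ ≠ 0 := by
    intro h0
    exact hϖ0 ((IsLocalization.injective S 𝔫.primeCompl_le_nonZeroDivisors) (by rw [h0, map_zero]))
  rw [← hmap]
  refine ⟨?_, inferInstance⟩
  have hprime : (I.map (algebraMap R S)).IsPrime := (Ideal.Quotient.isDomain_iff_prime _).1 inferInstance
  rw [hmap] at hprime
  exact (Ideal.span_singleton_prime hϖS).1 hprime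


/-- The localisation of a noetherian domain at the prime ideal generated by a prime element is a
discrete valuation ring. -/
theorem isDiscreteValuationRing_locAt_span {x : R} (hx : Prime x)
    [hI : (Ideal.span {x}).IsPrime] :
    IsDiscreteValuationRing (locAt (F := F) (Ideal.span {x})) := by
  set V := locAt (F := F) (Ideal.span {x}) with hV
  haveI : IsLocalRing V := isLocalRing_locAt _
  haveI : IsNoetherianRing V := isNoetherianRing_locAt _
  have hne : (Ideal.span {x} : Ideal R) ≠ ⊥ := by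
    rw [Ne, Ideal.span_singleton_eq_bot]; exact hx.ne_zero
  have hnf : ¬ IsField V := IsLocalization.AtPrime.not_isField R hne V
  have hmax : IsLocalRing.maximalIdeal V = Ideal.span {algebraMap R V x} := by
    rw [← IsLocalization.AtPrime.map_eq_maximalIdeal (Ideal.span {x}) V, Ideal.map_span,
      Set.image_singleton]
  refine ((IsDiscreteValuationRing.TFAE V hnf).out 0 4).2 ?_
  rw [hmax]
  exact ⟨⟨_, rfl⟩⟩

end Hyps

/-! ### The local root at a closed point of the special fibre -/

/-- Injectivity of `O → R` from the towers `O → K₀ → F` and `O → R → F`. -/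
theorem algebraMap_injective_of_tower {O R : Type*} (K₀ F : Type*) [CommRing O] [CommRing R]
    [Algebra O R] [Field K₀] [Algebra O K₀] [IsFractionRing O K₀] [Field F] [Algebra R F]
    [Algebra O F] [Algebra K₀ F] [IsScalarTower O R F] [IsScalarTower O K₀ F] :
    Function.Injective (algebraMap O R) := by
  have h1 : Function.Injective (algebraMap O F) := by
    rw [IsScalarTower.algebraMap_eq O K₀ F]
    exact (algebraMap K₀ F).injective.comp (IsFractionRing.injective O K₀)
  rw [IsScalarTower.algebraMap_eq O R F] at h1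
  exact Function.Injective.of_comp h1

section Root

open Fermat.Agent.N4.Cover.Local

variable {O K₀ : Type*} [CommRing O] [IsDomain O] [IsDiscreteValuationRing O]
  [Field K₀] [Algebra O K₀] [IsFractionRing O K₀]
variable {R : Type*} [CommRing R] [IsDomain R] [IsNoetherianRing R] [Algebra O R]
variable {F : Type u} [Field F] [Algebra R F] [IsFractionRing R F] [Algebra O F] [Algebra K₀ F]
  [IsScalarTower O R F] [IsScalarTower O K₀ F]

/-- The horizontal hypothesis: at every discrete valuation ring of `F` containing the constants,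
`f` is a unit times a `p`-th power. -/
def Horizontal (K₀ : Type*) [Field K₀] {F : Type u} [Field F] [Algebra K₀ F] (p : ℕ) (f : F) :
    Prop :=
  ∀ (V : Type u) [CommRing V] [IsDomain V] [IsDiscreteValuationRing V] [Algebra V F]
    [IsFractionRing V F], (∀ a : K₀, algebraMap K₀ F a ∈ (algebraMap V F).range) →
    ∃ (u : Vˣ) (h : F), f = algebraMap V F u * h ^ p

/-- The vertical hypothesis on the chart `R`: `f ≡ g ^ p` modulo `ϖ`, with `g` a unit at `ϖ`. -/
def Vertical {R F : Type*} [CommRing R] [Field F] [Algebra R F] (ϖ : R) (p : ℕ) (f g : F) : Prop :=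
  ∃ c d m n : R, ¬ ϖ ∣ c ∧ ¬ ϖ ∣ m ∧ ¬ ϖ ∣ n ∧ ϖ ∣ c - d ∧
    g * algebraMap R F n = algebraMap R F m ∧
    f * algebraMap R F d * algebraMap R F n ^ p = algebraMap R F c * algebraMap R F m ^ p


/-- **Local root at a closed point of the special fibre.** -/
theorem exists_root_at {π : O} (hπ : Irreducible π)
    (hD : IsDedekindDomain (R ⧸ Ideal.span {algebraMap O R π}))
    (hnf : ¬ IsField (R ⧸ Ideal.span {algebraMap O R π}))
    {p : ℕ} (hp : 0 < p) {f g : F} (hf : f ≠ 0)
    (hhor : Horizontal K₀ p f) (hvert : Vertical (algebraMap O R π) p f g)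
    (𝔫 : Ideal R) [h𝔫max : 𝔫.IsMaximal] (h𝔫 : algebraMap O R π ∈ 𝔫) :
    ∃ η : F, η ≠ 0 ∧
      (∃ s r : R, s ∉ 𝔫 ∧ r ∉ 𝔫 ∧ f * algebraMap R F s = η ^ p * algebraMap R F r) ∧
      ∃ a b : R, ¬ algebraMap O R π ∣ b ∧
        (η - g) * algebraMap R F b = algebraMap R F (algebraMap O R π) * algebraMap R F a := by
  classical
  set ϖ : R := algebraMap O R π with hϖ
  have hinjR : Function.Injective (algebraMap R F) := IsFractionRing.injective R F
  have hϖ0 : ϖ ≠ 0 := by
    intro h0
    exact hπ.ne_zero (algebraMap_injective_of_tower K₀ F (by rw [← hϖ, h0, map_zero]))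
  haveI := hD
  have hϖprime : Prime ϖ := by
    have : (Ideal.span {ϖ}).IsPrime := (Ideal.Quotient.isDomain_iff_prime _).1 inferInstance
    exact (Ideal.span_singleton_prime hϖ0).1 this
  obtain ⟨hπS, hPID⟩ := prime_and_pid (F := F) ϖ hϖ0 hD hnf 𝔫 h𝔫
  set S := locAt (F := F) 𝔫 with hS
  haveI : IsLocalRing S := isLocalRing_locAt 𝔫
  haveI : IsNoetherianRing S := isNoetherianRing_locAt 𝔫
  have hSF : ∀ r : R, algebraMap S F (algebraMap R S r) = algebraMap R F r := fun r =>
    (IsScalarTower.algebraMap_apply R S F r).symm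
  have hinjS : Function.Injective (algebraMap S F) := IsFractionRing.injective S F
  -- descent of divisibility by `ϖ`
  have hdesc : ∀ c : R, algebraMap R S ϖ ∣ algebraMap R S c → ϖ ∣ c := by
    rintro c ⟨y, hy⟩
    obtain ⟨a, s, hs, hys⟩ := (mem_locAt_iff 𝔫 (y : F)).1 y.2
    have h1 : algebraMap R F (c * s) = algebraMap R F (ϖ * a) := by
      have := congrArg (algebraMap S F) hy
      rw [map_mul, hSF, hSF] at this
      rw [map_mul, map_mul, this, ← hys]
      show algebraMap R F ϖ * (y : F) * algebraMap R F s = algebraMap R F ϖ * ((y : F) * algebraMap R F s)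
      ring
    have h2 : c * s = ϖ * a := hinjR h1
    rcases hϖprime.dvd_or_dvd ⟨a, h2⟩ with h | h
    · exact h
    · exact absurd (Ideal.mem_of_dvd 𝔫 h h𝔫) hs
  -- the vertical hypothesis in `S`
  have hvert' : ∃ c d m n : S, ¬ algebraMap R S ϖ ∣ c ∧ ¬ algebraMap R S ϖ ∣ m ∧
      ¬ algebraMap R S ϖ ∣ n ∧ algebraMap R S ϖ ∣ c - d ∧
      g * algebraMap S F n = algebraMap S F m ∧
      f * algebraMap S F d * algebraMap S F n ^ p = algebraMap S F c * algebraMap S F m ^ p := by
    obtain ⟨c, d, m, n, hc, hm, hn, hcd, hg, hfe⟩ := hvert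
    refine ⟨algebraMap R S c, algebraMap R S d, algebraMap R S m, algebraMap R S n,
      fun h => hc (hdesc c h), fun h => hm (hdesc m h), fun h => hn (hdesc n h), ?_, ?_, ?_⟩
    · rw [← map_sub]; exact map_dvd (algebraMap R S) hcd
    · rw [hSF, hSF]; exact hg
    · rw [hSF, hSF, hSF, hSF]; exact hfe
  -- the horizontal hypothesis in `S`
  have hhor' : ∀ x : S, Prime x → ¬ Associated x (algebraMap R S ϖ) → ∃ c d m n : S,
      ¬ x ∣ c ∧ ¬ x ∣ d ∧ n ≠ 0 ∧
      f * algebraMap S F d * algebraMap S F n ^ p = algebraMap S F c * algebraMap S F m ^ p := by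
    intro x hx hxπ
    haveI hxI : (Ideal.span {x}).IsPrime := (Ideal.span_singleton_prime hx.ne_zero).2 hx
    set V := locAt (R := S) (F := F) (Ideal.span {x}) with hV
    haveI : IsDiscreteValuationRing V := isDiscreteValuationRing_locAt_span (F := F) hx
    have hxnot : ∀ y : S, y ∉ Ideal.span {x} ↔ ¬ x ∣ y := fun y => by
      rw [Ideal.mem_span_singleton]
    have hxπ' : ¬ x ∣ algebraMap R S ϖ := fun h =>
      hxπ ((hx.dvd_prime_iff_associated hπS).1 h)
    have hK : ∀ a : K₀, algebraMap K₀ F a ∈ (algebraMap V F).range := by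
      intro a
      obtain ⟨b, c, hc, rfl⟩ := IsFractionRing.div_surjective (A := O) a
      have hc0 : c ≠ 0 := nonZeroDivisors.ne_zero hc
      obtain ⟨n, hn⟩ := IsDiscreteValuationRing.associated_pow_irreducible hc0 hπ
      have hcS : ¬ x ∣ algebraMap R S (algebraMap O R c) := by
        intro hdvd
        obtain ⟨u, hu⟩ := hn
        have h1 : algebraMap R S (algebraMap O R c) * algebraMap R S (algebraMap O R (u : O)) =
            algebraMap R S ϖ ^ n := by
          rw [← map_mul, ← map_mul, hu, map_pow, map_pow]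
        have h2 : x ∣ algebraMap R S ϖ ^ n := h1 ▸ Dvd.dvd.mul_right hdvd _
        exact hxπ' (hx.dvd_of_dvd_pow h2)
      have hmem : algebraMap K₀ F (algebraMap O K₀ b / algebraMap O K₀ c) ∈ V := by
        rw [hV, mem_locAt_iff]
        refine ⟨algebraMap R S (algebraMap O R b), algebraMap R S (algebraMap O R c),
          (hxnot _).2 hcS, ?_⟩
        rw [hSF, hSF, ← IsScalarTower.algebraMap_apply O R F, ← IsScalarTower.algebraMap_apply O R F,
          IsScalarTower.algebraMap_apply O K₀ F, IsScalarTower.algebraMap_apply O K₀ F, map_div₀]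
        have : algebraMap K₀ F (algebraMap O K₀ c) ≠ 0 := by
          rw [Ne, map_eq_zero]
          exact fun h0 => hc0 (IsFractionRing.injective O K₀ (by rw [h0, map_zero]))
        field_simp
      exact ⟨⟨_, hmem⟩, rfl⟩
    obtain ⟨u, h, hfu⟩ := hhor V hK
    obtain ⟨c, d, hd, hud⟩ := (mem_locAt_iff (Ideal.span {x}) ((u : V) : F)).1 (u : V).2
    obtain ⟨c', d', hd', hud'⟩ := (mem_locAt_iff (Ideal.span {x}) (((u⁻¹ : Vˣ) : V) : F)).1
      ((u⁻¹ : Vˣ) : V).2
    have huu : ((u : V) : F) * (((u⁻¹ : Vˣ) : V) : F) = 1 := by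
      rw [← MulMemClass.coe_mul, Units.mul_inv, OneMemClass.coe_one]
    have hcc : c * c' = d * d' := by
      apply hinjS
      rw [map_mul, map_mul, ← hud, ← hud']
      linear_combination (algebraMap S F d * algebraMap S F d') * huu
    have hc : ¬ x ∣ c := by
      intro hdvd
      have : x ∣ d * d' := hcc ▸ Dvd.dvd.mul_right hdvd _
      rcases hx.dvd_or_dvd this with h1 | h1
      · exact (hxnot d).1 hd h1
      · exact (hxnot d').1 hd' h1
    obtain ⟨m, n, hn, rfl⟩ := IsFractionRing.div_surjective (A := S) h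
    have hn0 : n ≠ 0 := nonZeroDivisors.ne_zero hn
    have hnF : algebraMap S F n ≠ 0 := fun h0 => hn0 (hinjS (by rw [h0, map_zero]))
    refine ⟨c, d, m, n, hc, (hxnot d).1 hd, hn0, ?_⟩
    have hVF : algebraMap V F (u : V) = ((u : V) : F) := rfl
    rw [hfu, hVF, div_pow, ← hud]
    field_simp
  obtain ⟨u, η, hη, hfη, a, b, hb, hab⟩ :=
    exists_local_root (S := S) (K := F) hπS hPID hp hf hhor' hvert'
  refine ⟨η, hη, ?_, ?_⟩
  · obtain ⟨r, s, hs, hus⟩ := (mem_locAt_iff 𝔫 ((u : S) : F)).1 (u : S).2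
    obtain ⟨r', s', hs', hus'⟩ := (mem_locAt_iff 𝔫 (((u⁻¹ : Sˣ) : S) : F)).1 ((u⁻¹ : Sˣ) : S).2
    have huu : ((u : S) : F) * (((u⁻¹ : Sˣ) : S) : F) = 1 := by
      rw [← MulMemClass.coe_mul, Units.mul_inv, OneMemClass.coe_one]
    have hrr : r * r' = s * s' := by
      apply hinjR
      rw [map_mul, map_mul, ← hus, ← hus']
      linear_combination (algebraMap R F s * algebraMap R F s') * huu
    have hr : r ∉ 𝔫 := by
      intro hr
      have : s * s' ∈ 𝔫 := hrr ▸ 𝔫.mul_mem_right _ hr
      rcases (h𝔫max.isPrime.mem_or_mem this) with h1 | h1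
      · exact hs h1
      · exact hs' h1
    refine ⟨s, r, hs, hr, ?_⟩
    have hSFu : algebraMap S F (u : S) = ((u : S) : F) := rfl
    rw [hfη, hSFu, ← hus]
    ring
  · obtain ⟨a₁, s₁, hs₁, has₁⟩ := (mem_locAt_iff 𝔫 (a : F)).1 a.2
    obtain ⟨b₂, s₂, hs₂, hbs₂⟩ := (mem_locAt_iff 𝔫 (b : F)).1 b.2
    have hϖs : ∀ s : R, s ∉ 𝔫 → ¬ ϖ ∣ s := fun s hs h => hs (Ideal.mem_of_dvd 𝔫 h h𝔫)
    refine ⟨a₁ * s₂, b₂ * s₁, ?_, ?_⟩
    · intro hdvd
      rcases hϖprime.dvd_or_dvd hdvd with h1 | h1
      · -- `ϖ ∣ b₂` forces `ϖ ∣ b` in `S`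
        obtain ⟨y, hy⟩ := h1
        have h2 : b * algebraMap R S s₂ = algebraMap R S ϖ * algebraMap R S y := by
          apply hinjS
          rw [map_mul, map_mul, hSF, hSF, hSF, ← map_mul, ← hy]
          exact hbs₂
        rcases hπS.dvd_or_dvd ⟨_, h2⟩ with h3 | h3
        · exact hb h3
        · exact hϖs s₂ hs₂ (hdesc s₂ h3)
      · exact hϖs s₁ hs₁ h1
    · have hSFa : algebraMap S F a = (a : F) := rfl
      have hSFb : algebraMap S F b = (b : F) := rfl
      rw [hSF, hSFa, hSFb] at hab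
      rw [map_mul, map_mul, ← has₁, ← hbs₂]
      linear_combination (algebraMap R F s₁ * algebraMap R F s₂) * hab

end Root

end Fermat.Agent.N4.Cover.Globalize
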