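/-
N4 block d (abstract part), file 1: integral closure in a Kummer extension of prime degree.

`R` an integrally closed domain with fraction field `K`, `p` a prime which is a unit of `R`,
`ζ ∈ R` a primitive `p`-th root of unity, `L = K(t)` with `t ^ p = f ∈ K`, `X ^ p - f` irreducible.
Then an element `∑ a_k t ^ k` (`k < p`, `a_k ∈ K`) of `L` is integral over `R` if and only if
`a_k ^ p * f ^ k ∈ R` for every `k`:

  `integral closure of R in L  =  ⊕_k L_k t ^ k`,   `L_k = {a ∈ K | a ^ p * f ^ k ∈ R}`.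

(Proof: the automorphism `σ : t ↦ ζ t` and the projectors `(1/p) ∑ ζ^{-ik} σ^i`.)
-/
import Mathlib

set_option autoImplicit false

open Polynomial IntermediateField

namespace Fermat.Agent.N4.Cover.KummerClosure

section Field

variable {K L : Type*} [Field K] [Field L] [Algebra K L]
variable {p : ℕ} (hp : p.Prime) {ζ : K} (hζ : IsPrimitiveRoot ζ p)
variable {f : K} {t : L} (ht : t ^ p = algebraMap K L f) (htop : K⟮t⟯ = ⊤)
variable (hirr : Irreducible (X ^ p - C f : K[X]))

include hp ht hirr in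
theorem minpoly_eq : minpoly K t = X ^ p - C f := by
  symm
  refine minpoly.eq_of_irreducible_of_monic hirr ?_ (monic_X_pow_sub_C f hp.ne_zero)
  simp [ht]

include hp ht htop hirr in
theorem finrank_eq : Module.finrank K L = p := by
  have hint : IsIntegral K t := by
    refine ⟨X ^ p - C f, monic_X_pow_sub_C f hp.ne_zero, ?_⟩
    simp [ht]
  have h1 := IntermediateField.adjoin.finrank hint
  rw [minpoly_eq hp ht hirr, natDegree_X_pow_sub_C] at h1
  rw [← h1, htop, IntermediateField.finrank_top']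


include hp hζ ht htop hirr in
/-- The Kummer automorphism `t ↦ ζ t`. -/
theorem exists_aut : ∃ σ : L ≃ₐ[K] L, σ t = ζ • t := by
  have hfr := finrank_eq hp ht htop hirr
  have : FiniteDimensional K L := Module.finite_of_finrank_pos (by rw [hfr]; exact hp.pos)
  have hK : (primitiveRoots (Module.finrank K L) K).Nonempty :=
    ⟨ζ, by rw [hfr, mem_primitiveRoots hp.pos]; exact hζ⟩
  have ha : t ^ (Module.finrank K L) = algebraMap K L f := by rw [hfr]; exact ht
  have hsplit := isSplittingField_X_pow_sub_C_of_root_adjoin_eq_top hK ha htop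
  rw [hfr] at hsplit
  have := hsplit
  have : NeZero p := ⟨hp.ne_zero⟩
  refine ⟨(autEquivZmod hirr L hζ).symm (Multiplicative.ofAdd ((1 : ℕ) : ZMod p)), ?_⟩
  have := autEquivZmod_symm_apply_natCast hirr L ht hζ 1
  simpa using this


include hp ht htop in
/-- Every element of `L` is `∑_{k<p} a_k t^k`. -/
theorem exists_eq_aeval (z : L) : ∃ P : K[X], P.natDegree < p ∧ z = aeval t P := by
  have hint : IsIntegral K t := by
    refine ⟨X ^ p - C f, monic_X_pow_sub_C f hp.ne_zero, ?_⟩
    simp [ht]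
  have hz : z ∈ K⟮t⟯.toSubalgebra := by rw [htop]; trivial
  rw [adjoin_simple_toSubalgebra_of_isAlgebraic hint.isAlgebraic,
    Algebra.adjoin_singleton_eq_range_aeval] at hz
  obtain ⟨Q, hQ⟩ := hz
  have hmon : (X ^ p - C f : K[X]).Monic := monic_X_pow_sub_C f hp.ne_zero
  have hroot : aeval t (X ^ p - C f : K[X]) = 0 := by simp [ht]
  refine ⟨Q %ₘ (X ^ p - C f), ?_, ?_⟩
  · have h := natDegree_modByMonic_lt Q hmon (by
      intro h1
      have := congrArg natDegree h1
      rw [natDegree_X_pow_sub_C, natDegree_one] at this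
      exact hp.ne_zero this)
    rwa [natDegree_X_pow_sub_C] at h
  · rw [aeval_modByMonic_eq_self_of_root hroot]
    exact hQ.symm


include hp ht hirr in
/-- Uniqueness of the coefficients. -/
theorem eq_zero_of_aeval_eq_zero {P : K[X]} (hdeg : P.natDegree < p) (h0 : aeval t P = 0) :
    P = 0 := by
  by_contra hP
  have h1 := natDegree_le_natDegree (minpoly.degree_le_of_ne_zero K t hP h0)
  rw [minpoly_eq hp ht hirr, natDegree_X_pow_sub_C] at h1
  omega

omit [Algebra K L] in
/-- Orthogonality of characters of `ℤ/p`. -/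
theorem sum_pow_mul (hp : p.Prime) {ζ : K} (hζ : IsPrimitiveRoot ζ p) {k k₀ : ℕ} (hk : k < p)
    (hk₀ : k₀ < p) :
    ∑ i ∈ Finset.range p, ζ ^ (i * (p - k₀)) * ζ ^ (i * k) = if k = k₀ then (p : K) else 0 := by
  have h1 : ∀ i, ζ ^ (i * (p - k₀)) * ζ ^ (i * k) = (ζ ^ (p - k₀ + k)) ^ i := by
    intro i
    rw [← pow_add, ← pow_mul]
    congr 1
    ring
  simp_rw [h1]
  split_ifs with h
  · subst h
    have : p - k + k = p := by omega
    rw [this, hζ.pow_eq_one]
    simp
  · have hcop : (p - k₀ + k).Coprime p := by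
      rw [Nat.coprime_comm, hp.coprime_iff_not_dvd]
      intro hdvd
      have h2 : p - k₀ + k < 2 * p := by omega
      have h3 : 0 < p - k₀ + k := by omega
      obtain ⟨c, hc⟩ := hdvd
      have hc1 : c = 1 := by
        rcases c with _ | _ | c
        · rw [mul_zero] at hc; omega
        · rfl
        · exfalso
          have : p * (c + 1 + 1) ≥ 2 * p := by nlinarith
          omega
      rw [hc1, mul_one] at hc
      omega
    exact (hζ.pow_of_coprime _ hcop).geom_sum_eq_zero hp.one_lt


omit [Algebra K L] in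
theorem aut_pow_apply [Algebra K L] (σ : L ≃ₐ[K] L) (hσ : σ t = ζ • t) (i : ℕ) :
    (σ ^ i) t = ζ ^ i • t := by
  induction i with
  | zero => simp
  | succ i ih =>
    rw [pow_succ', AlgEquiv.mul_apply, ih, map_smul, hσ, smul_smul, pow_succ]

theorem aut_pow_aeval (σ : L ≃ₐ[K] L) (hσ : σ t = ζ • t) (i : ℕ) {P : K[X]}
    (hdeg : P.natDegree < p) :
    (σ ^ i) (aeval t P) = ∑ k ∈ Finset.range p, (P.coeff k * ζ ^ (i * k)) • t ^ k := by
  have h0 : (σ ^ i) (aeval t P) = aeval ((σ ^ i) t) P :=
    (aeval_algHom_apply ((σ ^ i : L ≃ₐ[K] L) : L →ₐ[K] L) t P).symm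
  rw [h0, aut_pow_apply σ hσ i, aeval_eq_sum_range' hdeg]
  refine Finset.sum_congr rfl fun k _ => ?_
  rw [_root_.smul_pow, smul_smul, ← pow_mul]

include hp hζ in
/-- The projector on the `ζ ^ k₀`-eigenspace. -/
theorem projector (σ : L ≃ₐ[K] L) (hσ : σ t = ζ • t) {P : K[X]} (hdeg : P.natDegree < p)
    {k₀ : ℕ} (hk₀ : k₀ < p) :
    ∑ i ∈ Finset.range p, ζ ^ (i * (p - k₀)) • (σ ^ i) (aeval t P) =
      ((p : K) * P.coeff k₀) • t ^ k₀ := by
  simp_rw [aut_pow_aeval σ hσ _ hdeg, Finset.smul_sum, smul_smul]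
  rw [Finset.sum_comm]
  have h1 : ∀ k ∈ Finset.range p,
      ∑ i ∈ Finset.range p, (ζ ^ (i * (p - k₀)) * (P.coeff k * ζ ^ (i * k))) • t ^ k =
        (if k = k₀ then ((p : K) * P.coeff k₀) • t ^ k₀ else 0) := by
    intro k hk
    rw [← Finset.sum_smul]
    have h2 : ∑ i ∈ Finset.range p, ζ ^ (i * (p - k₀)) * (P.coeff k * ζ ^ (i * k)) =
        P.coeff k * ∑ i ∈ Finset.range p, ζ ^ (i * (p - k₀)) * ζ ^ (i * k) := by
      rw [Finset.mul_sum]
      refine Finset.sum_congr rfl fun i _ => by ring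
    rw [h2, sum_pow_mul hp hζ (Finset.mem_range.1 hk) hk₀]
    split_ifs with h
    · subst h; rw [mul_comm]
    · rw [mul_zero, zero_smul]
  rw [Finset.sum_congr rfl h1, Finset.sum_ite_eq' (Finset.range p) k₀]
  rw [if_pos (Finset.mem_range.2 hk₀)]

end Field


section Integral

variable {R K L : Type*} [CommRing R] [IsDomain R] [IsIntegrallyClosed R] [Field K] [Algebra R K]
  [IsFractionRing R K] [Field L] [Algebra K L] [Algebra R L] [IsScalarTower R K L]
variable {p : ℕ} (hp : p.Prime) (hpR : IsUnit ((p : ℕ) : R)) {ζ : R} (hζ : IsPrimitiveRoot ζ p)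
variable {f : K} {t : L} (ht : t ^ p = algebraMap K L f) (htop : K⟮t⟯ = ⊤)
variable (hirr : Irreducible (X ^ p - C f : K[X]))

omit [IsDomain R] [IsIntegrallyClosed R] [IsFractionRing R K] in
include hp ht in
/-- A monomial `a t ^ k` with `a ^ p f ^ k ∈ R` is integral over `R`. -/
theorem isIntegral_monomial {a : K} {k : ℕ} {r : R} (hr : algebraMap R K r = a ^ p * f ^ k) :
    IsIntegral R (a • t ^ k) := by
  refine IsIntegral.of_pow hp.pos ?_
  have : (a • t ^ k) ^ p = algebraMap R L r := by
    rw [_root_.smul_pow, ← pow_mul, mul_comm k p, pow_mul, ht, ← map_pow, Algebra.smul_def,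
      ← map_mul, ← hr, ← IsScalarTower.algebraMap_apply]
  rw [this]
  exact isIntegral_algebraMap

include hp hpR hζ ht htop hirr in
/-- **Integral closure in a Kummer extension of prime degree.** -/
theorem isIntegral_aeval_iff {P : K[X]} (hdeg : P.natDegree < p) :
    IsIntegral R (aeval t P) ↔ ∀ k < p, ∃ r : R, algebraMap R K r = P.coeff k ^ p * f ^ k := by
  have hinj : Function.Injective (algebraMap R K) := IsFractionRing.injective R K
  have hζK : IsPrimitiveRoot (algebraMap R K ζ) p := hζ.map_of_injective hinj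
  constructor
  · intro hz k₀ hk₀
    obtain ⟨σ, hσ⟩ := exists_aut hp hζK ht htop hirr
    -- the conjugates are integral
    have h1 : ∀ i : ℕ, IsIntegral R ((σ ^ i) (aeval t P)) := fun i =>
      hz.map ((σ ^ i : L ≃ₐ[K] L).restrictScalars R)
    -- the projector is integral
    have h2 : IsIntegral R (∑ i ∈ Finset.range p,
        (algebraMap R K ζ) ^ (i * (p - k₀)) • (σ ^ i) (aeval t P)) := by
      refine IsIntegral.sum _ fun i _ => ?_
      have : (algebraMap R K ζ) ^ (i * (p - k₀)) • (σ ^ i) (aeval t P) =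
          (ζ ^ (i * (p - k₀))) • (σ ^ i) (aeval t P) := by
        rw [← map_pow, algebraMap_smul]
      rw [this]
      exact (h1 i).smul _
    rw [projector hp hζK σ hσ hdeg hk₀] at h2
    -- divide by `p`
    obtain ⟨u, hu⟩ := hpR
    have h3 : IsIntegral R (P.coeff k₀ • t ^ k₀) := by
      have : P.coeff k₀ • t ^ k₀ = (↑u⁻¹ : R) • (((p : K) * P.coeff k₀) • t ^ k₀) := by
        rw [← algebraMap_smul K (↑u⁻¹ : R), smul_smul, ← mul_assoc]
        have hpK : algebraMap R K (↑u⁻¹ : R) * (p : K) = 1 := by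
          have : (p : K) = algebraMap R K ((p : ℕ) : R) := by simp
          rw [this, ← map_mul, ← hu, Units.inv_mul, map_one]
        rw [hpK, one_mul]
      rw [this]
      exact h2.smul _
    -- take the `p`-th power
    have h4 : IsIntegral R (algebraMap K L (P.coeff k₀ ^ p * f ^ k₀)) := by
      have : algebraMap K L (P.coeff k₀ ^ p * f ^ k₀) = (P.coeff k₀ • t ^ k₀) ^ p := by
        rw [_root_.smul_pow, ← pow_mul, mul_comm k₀ p, pow_mul, ht, ← map_pow, Algebra.smul_def,
          ← map_mul]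
      rw [this]
      exact h3.pow p
    have h5 : IsIntegral R (P.coeff k₀ ^ p * f ^ k₀) :=
      (isIntegral_algebraMap_iff (algebraMap K L).injective).1 h4
    obtain ⟨r, hr⟩ := IsIntegrallyClosed.isIntegral_iff.1 h5
    exact ⟨r, hr⟩
  · intro h
    rw [aeval_eq_sum_range' hdeg]
    refine IsIntegral.sum _ fun k hk => ?_
    obtain ⟨r, hr⟩ := h k (Finset.mem_range.1 hk)
    exact isIntegral_monomial hp ht hr

end Integral

end Fermat.Agent.N4.Cover.KummerClosure
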