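/-
N4 block d (abstract part), file 5: lifting the `p`-th roots of `f` from the closed points of the
special fibre to the whole chart.

`R` a domain with fraction field `F₀`, `ϖ ∈ R`, `W ⊆ F₀` a local subring containing `R` with maximal ideal
`ϖ W` (in the application `W = R_(ϖ)`), `F' = F₀(t)`, `t ^ p = f`.  If at every maximal ideal `𝔫 ∋ ϖ` of `R`
there is `η ∈ F₀` with `f / η ^ p ∈ R_𝔫ˣ` and `η ≡ g` modulo `ϖ W`, then for every `k` there is `b ∈ F₀` with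
`b t ^ k` integral over `R` and `b ≡ g ^ (-k)` modulo `ϖ W`.
-/
import Mathlib

set_option autoImplicit false

namespace Fermat.Agent.N4.Cover.Lift

variable {R F₀ F' : Type*} [CommRing R] [IsDomain R] [Field F₀] [Algebra R F₀]
  [Field F'] [Algebra F₀ F'] [Algebra R F'] [IsScalarTower R F₀ F']

/-- The subring `W` is local with maximal ideal generated by `ϖ`, contains `R`, and the elements of
`R` prime to `ϖ` are units of `W`. -/
structure IsGaussRing (W : Subring F₀) (ϖ : R) : Prop where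
  le : ∀ r : R, algebraMap R F₀ r ∈ W
  inv_mem : ∀ b : R, ¬ ϖ ∣ b → (algebraMap R F₀ b)⁻¹ ∈ W
  isLocal : ∀ w ∈ W, w⁻¹ ∈ W ∨ ∃ w' ∈ W, w = algebraMap R F₀ ϖ * w'
  not_unit : (algebraMap R F₀ ϖ)⁻¹ ∉ W

variable {W : Subring F₀} {ϖ : R}

theorem IsGaussRing.ne_zero (hW : IsGaussRing W ϖ) : algebraMap R F₀ ϖ ≠ 0 := by
  intro h0
  apply hW.not_unit
  rw [h0, inv_zero]
  exact W.zero_mem

/-- `1 + ϖ w` is a unit of `W`. -/
theorem IsGaussRing.inv_mem_of_sub_mem (hW : IsGaussRing W ϖ) {x y : F₀} (hx : x ∈ W)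
    (hxi : x⁻¹ ∈ W) (hx0 : x ≠ 0) (hy : y ∈ W) (hxy : ∃ w ∈ W, y - x = algebraMap R F₀ ϖ * w) :
    y⁻¹ ∈ W := by
  rcases hW.isLocal y hy with h | ⟨w', hw', hyw'⟩
  · exact h
  · exfalso
    obtain ⟨w, hw, hyx⟩ := hxy
    -- `x = ϖ (w' - w)`, so `ϖ⁻¹ = (w' - w) x⁻¹ ∈ W`
    apply hW.not_unit
    have hπ0 := hW.ne_zero
    have : (algebraMap R F₀ ϖ)⁻¹ = (w' - w) * x⁻¹ := by
      have hx' : x = algebraMap R F₀ ϖ * (w' - w) := by
        rw [mul_sub, ← hyw', ← hyx]; ring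
      rw [eq_comm, mul_inv_eq_iff_eq_mul₀ hx0, hx']
      field_simp
    rw [this]
    exact W.mul_mem (W.sub_mem hw' hw) hxi

/-- Difference of inverses. -/
theorem IsGaussRing.inv_sub_inv_mem (hW : IsGaussRing W ϖ) {x y : F₀}
    (hxi : x⁻¹ ∈ W) (hx0 : x ≠ 0) (hyi : y⁻¹ ∈ W) (hy0 : y ≠ 0)
    (hxy : ∃ w ∈ W, y - x = algebraMap R F₀ ϖ * w) :
    ∃ w ∈ W, y⁻¹ - x⁻¹ = algebraMap R F₀ ϖ * w := by
  obtain ⟨w, hw, hyx⟩ := hxy
  refine ⟨-(w * x⁻¹ * y⁻¹), W.neg_mem (W.mul_mem (W.mul_mem hw hxi) hyi), ?_⟩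
  have : y⁻¹ - x⁻¹ = -((y - x) * x⁻¹ * y⁻¹) := by field_simp; ring
  rw [this, hyx]; ring

/-- Difference of powers. -/
theorem IsGaussRing.pow_sub_pow_mem {x y : F₀} (hx : x ∈ W) (hy : y ∈ W)
    (hxy : ∃ w ∈ W, y - x = algebraMap R F₀ ϖ * w) (k : ℕ) :
    ∃ w ∈ W, y ^ k - x ^ k = algebraMap R F₀ ϖ * w := by
  obtain ⟨w, hw, hyx⟩ := hxy
  obtain ⟨c, hc⟩ := sub_dvd_pow_sub_pow (⟨y, hy⟩ : W) ⟨x, hx⟩ k
  have hc' : y ^ k - x ^ k = (y - x) * (c : F₀) := by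
    have := congrArg (fun z : W => (z : F₀)) hc
    simpa using this
  exact ⟨w * c, W.mul_mem hw c.2, by rw [hc', hyx]; ring⟩

/-- **The lifting step.** -/
theorem exists_lift (hinj : Function.Injective (algebraMap R F₀)) (hW : IsGaussRing W ϖ) {p : ℕ} (hp : 0 < p) {f g : F₀} {t : F'}
    (ht : t ^ p = algebraMap F₀ F' f) (hg0 : g ≠ 0) (hg : g ∈ W) (hgi : g⁻¹ ∈ W)
    (hloc : ∀ 𝔫 : Ideal R, 𝔫.IsMaximal → ϖ ∈ 𝔫 → ∃ η : F₀, η ≠ 0 ∧
      (∃ s r : R, s ∉ 𝔫 ∧ r ∉ 𝔫 ∧ f * algebraMap R F₀ s = η ^ p * algebraMap R F₀ r) ∧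
      ∃ a b : R, ¬ ϖ ∣ b ∧
        (η - g) * algebraMap R F₀ b = algebraMap R F₀ ϖ * algebraMap R F₀ a)
    (k : ℕ) :
    ∃ b : F₀, IsIntegral R (algebraMap F₀ F' b * t ^ k) ∧
      ∃ w ∈ W, b - (g⁻¹) ^ k = algebraMap R F₀ ϖ * w := by
  classical
  have hπ0 := hW.ne_zero
  -- the ideal of admissible multipliers
  let 𝔞 : Ideal R :=
    { carrier := {r | ∃ b : F₀, IsIntegral R (algebraMap F₀ F' b * t ^ k) ∧
        ∃ w ∈ W, b - algebraMap R F₀ r * (g⁻¹) ^ k = algebraMap R F₀ ϖ * w}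
      zero_mem' := ⟨0, by rw [map_zero, zero_mul]; exact isIntegral_zero, 0, W.zero_mem, by simp⟩
      add_mem' := by
        rintro r₁ r₂ ⟨b₁, hb₁, w₁, hw₁, h₁⟩ ⟨b₂, hb₂, w₂, hw₂, h₂⟩
        refine ⟨b₁ + b₂, ?_, w₁ + w₂, W.add_mem hw₁ hw₂, ?_⟩
        · rw [map_add, add_mul]; exact hb₁.add hb₂
        · rw [map_add]; linear_combination h₁ + h₂
      smul_mem' := by
        rintro c r ⟨b, hb, w, hw, h⟩
        refine ⟨algebraMap R F₀ c * b, ?_, algebraMap R F₀ c * w, W.mul_mem (hW.le c) hw, ?_⟩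
        · rw [map_mul, mul_assoc, ← IsScalarTower.algebraMap_apply R F₀ F']
          exact isIntegral_algebraMap.mul hb
        · rw [smul_eq_mul, map_mul]; linear_combination (algebraMap R F₀ c) * h }
  have hmem : ∀ r : R, r ∈ 𝔞 ↔ ∃ b : F₀, IsIntegral R (algebraMap F₀ F' b * t ^ k) ∧
        ∃ w ∈ W, b - algebraMap R F₀ r * (g⁻¹) ^ k = algebraMap R F₀ ϖ * w := fun r => Iff.rfl
  have hϖ𝔞 : ϖ ∈ 𝔞 := by
    rw [hmem]
    refine ⟨0, by rw [map_zero, zero_mul]; exact isIntegral_zero, -(g⁻¹) ^ k,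
      W.neg_mem (W.pow_mem hgi k), by ring⟩
  have htop : 𝔞 = ⊤ := by
    by_contra hne
    obtain ⟨𝔫, h𝔫max, h𝔫⟩ := Ideal.exists_le_maximal 𝔞 hne
    obtain ⟨η, hη0, ⟨s, r, hs, hr, hfs⟩, a, b₀, hb₀, hab⟩ := hloc 𝔫 h𝔫max (h𝔫 hϖ𝔞)
    have hs0 : algebraMap R F₀ s ≠ 0 := fun h0 => hs (by
      have : s = 0 := hinj (by rw [h0, map_zero])
      rw [this]; exact 𝔫.zero_mem)
    have hb₀i := hW.inv_mem b₀ hb₀
    have hb₀0 : algebraMap R F₀ b₀ ≠ 0 := by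
      intro h0
      apply hb₀
      have : b₀ = 0 := hinj (by rw [h0, map_zero])
      rw [this]; exact dvd_zero _
    have hηg : ∃ w ∈ W, η - g = algebraMap R F₀ ϖ * w :=
      ⟨algebraMap R F₀ a * (algebraMap R F₀ b₀)⁻¹, W.mul_mem (hW.le a) hb₀i, by
        rw [← mul_assoc, ← hab]; field_simp⟩
    have hηW : η ∈ W := by
      obtain ⟨w, hw, h⟩ := hηg
      have : η = g + algebraMap R F₀ ϖ * w := by linear_combination h
      rw [this]
      exact W.add_mem hg (W.mul_mem (hW.le ϖ) hw)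
    have hηi : η⁻¹ ∈ W := hW.inv_mem_of_sub_mem hg hgi hg0 hηW hηg
    have hinv : ∃ w ∈ W, η⁻¹ - g⁻¹ = algebraMap R F₀ ϖ * w :=
      hW.inv_sub_inv_mem hgi hg0 hηi hη0 hηg
    have hpow : ∃ w ∈ W, (η⁻¹) ^ k - (g⁻¹) ^ k = algebraMap R F₀ ϖ * w :=
      IsGaussRing.pow_sub_pow_mem hgi hηi hinv k
    have hsk : s ^ k ∈ 𝔞 := by
      rw [hmem]
      refine ⟨(algebraMap R F₀ s) ^ k * (η⁻¹) ^ k, ?_, ?_⟩
      · apply IsIntegral.of_pow hp
        have hF₀ : ((algebraMap R F₀ s) ^ k * (η⁻¹) ^ k) ^ p * f ^ k =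
            algebraMap R F₀ (s ^ (k * (p - 1)) * r ^ k) := by
          have hf' : f = η ^ p * algebraMap R F₀ r / algebraMap R F₀ s := by
            rw [eq_div_iff hs0]; exact hfs
          rw [hf', map_mul, map_pow, map_pow]
          obtain ⟨q, rfl⟩ : ∃ q, p = q + 1 := ⟨p - 1, by omega⟩
          simp only [Nat.add_sub_cancel]
          have e1 : (η⁻¹) ^ k = (η ^ k)⁻¹ := inv_pow η k
          rw [e1, mul_pow, div_pow, mul_pow, inv_pow, ← pow_mul, ← pow_mul, ← pow_mul,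
            mul_comm (q + 1) k, mul_add, mul_one, pow_add]
          field_simp
        have : (algebraMap F₀ F' ((algebraMap R F₀ s) ^ k * (η⁻¹) ^ k) * t ^ k) ^ p =
            algebraMap R F' (s ^ (k * (p - 1)) * r ^ k) := by
          rw [mul_pow, ← pow_mul, mul_comm k p, pow_mul, ht, ← map_pow (algebraMap F₀ F') f k,
            ← map_pow (algebraMap F₀ F') _ p, ← map_mul, hF₀,
            ← IsScalarTower.algebraMap_apply R F₀ F']
        rw [this]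
        exact isIntegral_algebraMap
      · obtain ⟨w, hw, h⟩ := hpow
        refine ⟨algebraMap R F₀ s ^ k * w, W.mul_mem (W.pow_mem (hW.le s) k) hw, ?_⟩
        rw [map_pow]
        linear_combination (algebraMap R F₀ s) ^ k * h
    exact hs (h𝔫max.isPrime.mem_of_pow_mem k (h𝔫 hsk))
  have h1 : (1 : R) ∈ 𝔞 := by rw [htop]; trivial
  obtain ⟨b, hb, w, hw, h⟩ := (hmem 1).1 h1
  exact ⟨b, hb, w, hw, by rw [map_one, one_mul] at h; exact h⟩

end Fermat.Agent.N4.Cover.Lift
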