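/-
N4 block d (abstract part), file 7: **no split cyclic cover**.

`O` a discrete valuation ring with uniformiser `π`, fraction field `K₀` of characteristic `0`; `F₀` a finite
extension of `K₀(j)`; the two charts `R₊ = chartAlg O F₀ {j}`, `R₋ = chartAlg O F₀ {j⁻¹}` have Dedekind
special fibres `R± / π`; `F' = F₀(t)`, `t ^ p = f`, a cyclic cover of prime degree `p ∈ Oˣ` (with `ζ_p ∈ O`)
in which `K₀` is algebraically closed, unramified over the generic fibre (`Horizontal`) and split along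
the special fibre (`Vertical`): contradiction.
-/
import Mathlib
import Fermat.Agent.N4.Chart
import Fermat.Agent.N4.IntClosure
import Fermat.Agent.N4.IntClosureCech
import Fermat.Agent.N4.Cover.Globalize
import Fermat.Agent.N4.Cover.Idempotent

set_option autoImplicit false

open Polynomial IntermediateField

namespace Fermat.Agent.N4.Cover.Main

open Fermat.Agent.N4.Chart Fermat.Agent.N4.IntClosure Fermat.Agent.N4.IntClosureCech
  Fermat.Agent.N4.Cover.Globalize Fermat.Agent.N4.Cover.Lift Fermat.Agent.N4.Cover.Idempotent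

universe u

section ChartFacts

variable {O K₀ : Type*} [CommRing O] [IsDomain O] [Field K₀] [Algebra O K₀] [IsFractionRing O K₀]
variable {F₀ : Type*} [Field F₀] [Algebra K₀ F₀] [Algebra O F₀] [IsScalarTower O K₀ F₀]

/-- The chart has fraction field `F₀`. -/
theorem isFractionRing_chartAlg (j : F₀) (hj : Transcendental K₀ j) [FiniteDimensional K₀⟮j⟯ F₀] :
    IsFractionRing (chartAlg O F₀ {j}) F₀ := by
  letI := algPolyTop (O := O) j
  letI := algPolyMid (O := O) (K := K₀) j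
  haveI := isScalarTower_poly (O := O) (K := K₀) j
  haveI := isFractionRing_poly (O := O) j hj
  have halg : Algebra.IsAlgebraic O[X] F₀ :=
    (IsFractionRing.comap_isAlgebraic_iff (A := O[X]) (K := K₀⟮j⟯)).mpr
      (Algebra.IsAlgebraic.of_finite K₀⟮j⟯ F₀)
  haveI : FaithfulSMul (chartAlg O F₀ {j}) F₀ :=
    (faithfulSMul_iff_algebraMap_injective _ _).mpr Subtype.val_injective
  refine IsFractionRing.of_field _ _ fun z => ?_
  obtain ⟨d, hd0, hd⟩ := (halg.isAlgebraic z).exists_integral_multiple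
  have hdz : (aeval j d) * z ∈ chartAlg O F₀ {j} := by
    rw [mem_chartAlg_singleton_iff]
    have : d • z = aeval j d * z := by
      rw [Algebra.smul_def]; rfl
    rw [← this]
    exact hd
  have hdmem : aeval j d ∈ chartAlg O F₀ {j} :=
    adjoin_le_chartAlg _ (aeval_mem_adjoin_singleton O j)
  have hd0' : aeval j d ≠ 0 := by
    intro h0
    exact hd0 (aeval_injective (K := K₀) j hj (by rw [h0, map_zero]))
  refine ⟨⟨_, hdz⟩, ⟨_, hdmem⟩, ?_⟩
  show z = (aeval j d * z) / aeval j d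
  field_simp

/-- The chart is integrally closed. -/
theorem isIntegrallyClosed_chartAlg (j : F₀) (hj : Transcendental K₀ j)
    [FiniteDimensional K₀⟮j⟯ F₀] : IsIntegrallyClosed (chartAlg O F₀ {j}) := by
  haveI := isFractionRing_chartAlg (O := O) (K₀ := K₀) j hj
  refine (isIntegrallyClosed_iff F₀).2 fun {x} hx => ?_
  exact ⟨⟨x, isIntegral_chartAlg_iff.1 hx⟩, rfl⟩

end ChartFacts

section Transfer

/-- Integrality descends along a pointwise factorisation of the structure maps. -/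
theorem isIntegral_of_forall_exists {A B L : Type*} [CommRing A] [CommRing B] [CommRing L]
    [Algebra A L] [Algebra B L] (hinj : Function.Injective (algebraMap B L))
    (h : ∀ a : A, ∃ b : B, algebraMap B L b = algebraMap A L a) {x : L} (hx : IsIntegral A x) :
    IsIntegral B x := by
  choose c hc using h
  let ψ : A →+* B :=
    { toFun := c
      map_one' := hinj (by rw [hc, map_one, map_one])
      map_mul' := fun a b => hinj (by rw [hc, map_mul, map_mul, hc, hc])
      map_zero' := hinj (by rw [hc, map_zero, map_zero])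
      map_add' := fun a b => hinj (by rw [hc, map_add, map_add, hc, hc]) }
  refine hx.map_of_comp_eq ψ (RingHom.id L) ?_
  ext a
  exact hc a

variable {O : Type*} [CommRing O]
variable {F₀ F' : Type*} [Field F₀] [Algebra O F₀] [Field F'] [Algebra F₀ F'] [Algebra O F']
  [IsScalarTower O F₀ F']

/-- Elements of `O[φ S] ⊆ F'` come from `O[S] ⊆ F₀`. -/
theorem exists_of_mem_adjoin_image (S : Set F₀) {a : F'}
    (ha : a ∈ Algebra.adjoin O (algebraMap F₀ F' '' S)) :
    ∃ b ∈ Algebra.adjoin O S, algebraMap F₀ F' b = a := by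
  have h := AlgHom.map_adjoin (IsScalarTower.toAlgHom O F₀ F') S
  have h' : a ∈ (Algebra.adjoin O S).map (IsScalarTower.toAlgHom O F₀ F') := by
    rw [h]; exact ha
  obtain ⟨b, hb, rfl⟩ := h'
  exact ⟨b, hb, rfl⟩

/-- Integral over the chart of `F₀` ⇒ in the chart of `F'`. -/
theorem mem_chartAlg_of_isIntegral (S : Set F₀) {x : F'}
    (hx : IsIntegral (chartAlg O F₀ S) x) : x ∈ chartAlg O F' (algebraMap F₀ F' '' S) := by
  rw [mem_chartAlg_iff]
  -- step 1: integral over `O[S]`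
  let A := Algebra.adjoin O S
  letI : Algebra A (chartAlg O F₀ S) :=
    (Subalgebra.inclusion (adjoin_le_chartAlg (O := O) S)).toRingHom.toAlgebra
  haveI : IsScalarTower A (chartAlg O F₀ S) F' := IsScalarTower.of_algebraMap_eq fun _ => rfl
  haveI : IsScalarTower A (chartAlg O F₀ S) F₀ := IsScalarTower.of_algebraMap_eq fun _ => rfl
  haveI : Algebra.IsIntegral A (chartAlg O F₀ S) := ⟨fun y => by
    have hy : IsIntegral A (algebraMap (chartAlg O F₀ S) F₀ y) := y.2
    exact (isIntegral_algebraMap_iff (Subtype.val_injective)).1 hy⟩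
  have h1 : IsIntegral A x := isIntegral_trans x hx
  -- step 2: transport along `O[S] → O[φ S]`
  let ψ : A →+* Algebra.adjoin O (algebraMap F₀ F' '' S) :=
    RingHom.codRestrict ((algebraMap F₀ F').comp (A.val : A →+* F₀)) _ fun a => by
      have h := AlgHom.map_adjoin (IsScalarTower.toAlgHom O F₀ F') S
      have : algebraMap F₀ F' (a : F₀) ∈ (Algebra.adjoin O S).map (IsScalarTower.toAlgHom O F₀ F') :=
        ⟨a, a.2, rfl⟩
      rw [h] at this
      exact this
  exact h1.map_of_comp_eq ψ (RingHom.id F') (by ext a; rfl)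

/-- In the chart of `F'` ⇒ integral over the chart of `F₀`. -/
theorem isIntegral_of_mem_chartAlg (S : Set F₀) {x : F'}
    (hx : x ∈ chartAlg O F' (algebraMap F₀ F' '' S)) : IsIntegral (chartAlg O F₀ S) x := by
  rw [mem_chartAlg_iff] at hx
  refine isIntegral_of_forall_exists ?_ ?_ hx
  · exact (algebraMap F₀ F').injective.comp Subtype.val_injective
  · intro a
    obtain ⟨b, hb, hba⟩ := exists_of_mem_adjoin_image (O := O) S a.2
    exact ⟨⟨b, adjoin_le_chartAlg S hb⟩, hba⟩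

/-- In the chart of `F'` ⇒ integral over any subring `W ⊆ F₀` containing `O[S]`. -/
theorem isIntegral_subring_of_mem_chartAlg (S : Set F₀) (W : Subring F₀)
    (hW : ∀ b ∈ Algebra.adjoin O S, b ∈ W) {x : F'}
    (hx : x ∈ chartAlg O F' (algebraMap F₀ F' '' S)) : IsIntegral W x := by
  rw [mem_chartAlg_iff] at hx
  refine isIntegral_of_forall_exists ?_ ?_ hx
  · exact (algebraMap F₀ F').injective.comp Subtype.val_injective
  · intro a
    obtain ⟨b, hb, hba⟩ := exists_of_mem_adjoin_image (O := O) S a.2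
    exact ⟨⟨b, hW b hb⟩, hba⟩

end Transfer

section Finite

theorem finiteDimensional_adjoin_image {K₀ F₀ F' : Type*} [Field K₀] [Field F₀] [Field F']
    [Algebra K₀ F₀] [Algebra F₀ F'] [Algebra K₀ F'] [IsScalarTower K₀ F₀ F'] (j : F₀)
    [FiniteDimensional K₀⟮j⟯ F₀] [FiniteDimensional F₀ F'] :
    FiniteDimensional K₀⟮algebraMap F₀ F' j⟯ F' := by
  let f : F₀ →ₐ[K₀] F' := IsScalarTower.toAlgHom K₀ F₀ F'
  have hmap : (K₀⟮j⟯).map f = K₀⟮algebraMap F₀ F' j⟯ := by
    rw [adjoin_map, Set.image_singleton]; rfl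
  have : IsScalarTower K₀⟮j⟯ F₀ F' := inferInstance
  have : Module.Finite K₀⟮j⟯ F' := Module.Finite.trans F₀ F'
  let e₁ : K₀⟮j⟯ ≃+* K₀⟮algebraMap F₀ F' j⟯ :=
    ((K₀⟮j⟯).equivMap f).toRingEquiv.trans (IntermediateField.equivOfEq hmap).toRingEquiv
  exact Module.Finite.of_equiv_equiv e₁ (RingEquiv.refl F') (by ext x; rfl)

theorem adjoin_inv_eq {K₀ F₀ : Type*} [Field K₀] [Field F₀] [Algebra K₀ F₀] (j : F₀) :
    K₀⟮j⁻¹⟯ = K₀⟮j⟯ := by
  apply le_antisymm
  · rw [adjoin_simple_le_iff]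
    exact inv_mem (mem_adjoin_simple_self K₀ j)
  · rw [adjoin_simple_le_iff]
    have := inv_mem (mem_adjoin_simple_self K₀ j⁻¹)
    rwa [inv_inv] at this

end Finite

section Gauss

variable {R F : Type*} [CommRing R] [IsDomain R] [Field F] [Algebra R F] [IsFractionRing R F]

/-- The localisation of `R` at a prime element `ϖ` is a Gauss ring for `(R, ϖ)`. -/
theorem isGaussRing_locAt {ϖ : R} (hϖ : Prime ϖ) [(Ideal.span {ϖ}).IsPrime] :
    IsGaussRing (locAt (F := F) (Ideal.span {ϖ})).toSubring ϖ := by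
  have hinj : Function.Injective (algebraMap R F) := IsFractionRing.injective R F
  have hne : ∀ {y : R}, y ≠ 0 → algebraMap R F y ≠ 0 := fun hy h0 =>
    hy (hinj (by rw [h0, map_zero]))
  have hnot : ∀ y : R, y ∉ Ideal.span {ϖ} ↔ ¬ ϖ ∣ y := fun y => by rw [Ideal.mem_span_singleton]
  refine ⟨fun r => Subalgebra.algebraMap_mem _ r, ?_, ?_, ?_⟩
  · intro b hb
    have hb0 : b ≠ 0 := fun h0 => hb (h0 ▸ dvd_zero ϖ)
    show (algebraMap R F b)⁻¹ ∈ locAt (F := F) (Ideal.span {ϖ})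
    rw [mem_locAt_iff]
    exact ⟨1, b, (hnot b).2 hb, by rw [map_one, inv_mul_cancel₀ (hne hb0)]⟩
  · intro w hw
    have hw' : w ∈ locAt (F := F) (Ideal.span {ϖ}) := hw
    rw [mem_locAt_iff] at hw'
    obtain ⟨a, s, hs, hws⟩ := hw'
    have hs0 : s ≠ 0 := fun h0 => (hnot s).1 hs (h0 ▸ dvd_zero ϖ)
    by_cases ha : ϖ ∣ a
    · right
      obtain ⟨a', rfl⟩ := ha
      refine ⟨algebraMap R F a' / algebraMap R F s, ?_, ?_⟩
      · show _ ∈ locAt (F := F) (Ideal.span {ϖ})
        rw [mem_locAt_iff]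
        exact ⟨a', s, hs, by rw [div_mul_cancel₀ _ (hne hs0)]⟩
      · rw [map_mul] at hws
        rw [← mul_div_assoc, ← hws, mul_div_cancel_right₀ _ (hne hs0)]
    · left
      have ha0 : a ≠ 0 := fun h0 => ha (h0 ▸ dvd_zero ϖ)
      show w⁻¹ ∈ locAt (F := F) (Ideal.span {ϖ})
      rw [mem_locAt_iff]
      refine ⟨s, a, (hnot a).2 ha, ?_⟩
      have hw0 : w ≠ 0 := by
        rintro rfl
        rw [zero_mul] at hws
        exact hne ha0 hws.symm
      rw [← hws, ← mul_assoc, inv_mul_cancel₀ hw0, one_mul]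
  · intro h
    have h' : (algebraMap R F ϖ)⁻¹ ∈ locAt (F := F) (Ideal.span {ϖ}) := h
    rw [mem_locAt_iff] at h'
    obtain ⟨a, s, hs, hws⟩ := h'
    apply (hnot s).1 hs
    refine ⟨a, hinj ?_⟩
    rw [map_mul, ← hws]
    field_simp [hne hϖ.ne_zero]

/-- A second chart `R'` inside the same Gauss ring, detected by a reduction map `Θ`. -/
theorem isGaussRing_of_theta {R' Ω : Type*} [CommRing R'] [Algebra R' F] [CommRing Ω] [IsDomain Ω]
    {W : Subring F} {ϖ : R} {ϖ' : R'} (hW : IsGaussRing W ϖ)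
    (hval : ∀ x : F, x ∈ W ∨ x⁻¹ ∈ W)
    (hfrac : ∀ w ∈ W, ∃ a b : R, ¬ ϖ ∣ b ∧ w * algebraMap R F b = algebraMap R F a)
    (G : Subring F) (Θ : G →+* Ω) (hRG : ∀ r : R, algebraMap R F r ∈ G)
    (hR'G : ∀ r : R', algebraMap R' F r ∈ G)
    (hΘϖ : Θ ⟨algebraMap R F ϖ, hRG ϖ⟩ = 0)
    (hΘR : ∀ r : R, Θ ⟨algebraMap R F r, hRG r⟩ = 0 → ϖ ∣ r)
    (hΘR' : ∀ r : R', Θ ⟨algebraMap R' F r, hR'G r⟩ = 0 → ϖ' ∣ r)
    (hϖϖ' : algebraMap R' F ϖ' = algebraMap R F ϖ) : IsGaussRing W ϖ' := by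
  have key : ∀ (x : F) (hx : x ∈ G), x ∈ W → x⁻¹ ∈ W ∨ Θ ⟨x, hx⟩ = 0 := by
    intro x hx hxW
    rcases hW.isLocal x hxW with h | ⟨w', hw', hxw'⟩
    · exact Or.inl h
    · right
      obtain ⟨a, b, hb, hab⟩ := hfrac w' hw'
      by_contra hΘx
      apply hb
      apply hΘR
      have h1 : (⟨x, hx⟩ : G) * ⟨algebraMap R F b, hRG b⟩ =
          ⟨algebraMap R F ϖ, hRG ϖ⟩ * ⟨algebraMap R F a, hRG a⟩ := by
        apply Subtype.ext
        show x * algebraMap R F b = algebraMap R F ϖ * algebraMap R F a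
        rw [hxw', mul_assoc, hab]
      have h2 := congrArg Θ h1
      rw [map_mul, map_mul, hΘϖ, zero_mul] at h2
      exact (mul_eq_zero.1 h2).resolve_left hΘx
  have hle : ∀ r : R', algebraMap R' F r ∈ W := by
    intro r
    rcases hval (algebraMap R' F r) with h | h
    · exact h
    · -- `x⁻¹ ∈ W`; if `x ∉ W` then `x⁻¹ = ϖ w'`, impossible
      by_contra hx
      set x := algebraMap R' F r with hxdef
      have hx0 : x ≠ 0 := fun h0 => hx (h0 ▸ W.zero_mem)
      rcases hW.isLocal x⁻¹ h with h1 | ⟨w', hw', hxw'⟩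
      · rw [inv_inv] at h1; exact hx h1
      · obtain ⟨a, b, hb, hab⟩ := hfrac w' hw'
        apply hb
        apply hΘR
        have h1 : (⟨algebraMap R F b, hRG b⟩ : G) =
            ⟨x, hR'G r⟩ * (⟨algebraMap R F ϖ, hRG ϖ⟩ * ⟨algebraMap R F a, hRG a⟩) := by
          apply Subtype.ext
          show algebraMap R F b = x * (algebraMap R F ϖ * algebraMap R F a)
          have : x * (algebraMap R F ϖ * algebraMap R F a) =
              x * (algebraMap R F ϖ * w') * algebraMap R F b := by rw [← hab]; ring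
          rw [this, ← hxw', mul_inv_cancel₀ hx0, one_mul]
        rw [h1, map_mul, map_mul, hΘϖ, zero_mul, mul_zero]
  refine ⟨hle, ?_, ?_, ?_⟩
  · intro b hb
    rcases key (algebraMap R' F b) (hR'G b) (hle b) with h | h
    · exact h
    · exact absurd (hΘR' b h) hb
  · intro w hw
    rw [hϖϖ']
    exact hW.isLocal w hw
  · rw [hϖϖ']
    exact hW.not_unit

end Gauss

section Vert

variable {R F₀ F' : Type*} [CommRing R] [IsDomain R] [Field F₀] [Algebra R F₀] [Field F']
  [Algebra F₀ F'] [Algebra R F'] [IsScalarTower R F₀ F']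

/-- The vertical hypothesis gives the data of the idempotent computation. -/
theorem idemData_of_vertical {W : Subring F₀} {ϖ : R} (hW : IsGaussRing W ϖ)
    (hinj : Function.Injective (algebraMap R F₀)) {p : ℕ} (hp : p.Prime) {f g : F₀} {t : F'}
    (ht : t ^ p = algebraMap F₀ F' f) (hf0 : f ≠ 0) (hv : Vertical ϖ p f g)
    (hpi : ((p : ℕ) : F₀)⁻¹ ∈ W) (hp0 : ((p : ℕ) : F₀) ≠ 0) : IdemData W ϖ p f g t := by
  obtain ⟨c, d, m, n, hc, hm, hn, hcd, hg, hfe⟩ := hv
  have hne : ∀ {y : R}, ¬ ϖ ∣ y → algebraMap R F₀ y ≠ 0 := fun {y} hy h0 => hy (by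
    have : y = 0 := hinj (by rw [h0, map_zero])
    rw [this]; exact dvd_zero _)
  have hd : ¬ ϖ ∣ d := fun h => hc (by
    have := dvd_add hcd h
    rwa [sub_add_cancel] at this)
  have hm0 := hne hm
  have hn0 := hne hn
  have hd0 := hne hd
  have hg' : g = algebraMap R F₀ m * (algebraMap R F₀ n)⁻¹ := by
    rw [eq_mul_inv_iff_mul_eq₀ hn0]; exact hg
  have hg0 : g ≠ 0 := by rw [hg']; exact mul_ne_zero hm0 (inv_ne_zero hn0)
  have hgi' : g⁻¹ = algebraMap R F₀ n * (algebraMap R F₀ m)⁻¹ := by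
    rw [hg', mul_inv, inv_inv, mul_comm]
  obtain ⟨e, he⟩ := hcd
  refine ⟨hW, hp, ht, hg0, hf0, ?_, ?_, ?_, hpi, hp0⟩
  · rw [hg']; exact W.mul_mem (hW.le m) (hW.inv_mem n hn)
  · rw [hgi']; exact W.mul_mem (hW.le n) (hW.inv_mem m hm)
  · refine ⟨algebraMap R F₀ e * (algebraMap R F₀ d)⁻¹, W.mul_mem (hW.le e) (hW.inv_mem d hd), ?_⟩
    have h1 : (g⁻¹) ^ p * f = algebraMap R F₀ c * (algebraMap R F₀ d)⁻¹ := by
      rw [hgi', mul_pow, inv_pow, eq_mul_inv_iff_mul_eq₀ hd0]
      have hmp : algebraMap R F₀ m ^ p ≠ 0 := pow_ne_zero p hm0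
      field_simp
      linear_combination hfe
    have h2 : algebraMap R F₀ c = algebraMap R F₀ d + algebraMap R F₀ ϖ * algebraMap R F₀ e := by
      rw [← map_mul, ← map_add, ← he]; congr 1; ring
    rw [h1, h2]
    field_simp
    ring

end Vert

section Chart

variable {O K₀ : Type*} [CommRing O] [IsDomain O] [IsDiscreteValuationRing O]
  [Field K₀] [CharZero K₀] [Algebra O K₀] [IsFractionRing O K₀]
variable {F₀ : Type u} [Field F₀] [Algebra K₀ F₀] [Algebra O F₀] [IsScalarTower O K₀ F₀]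
variable {F' : Type*} [Field F'] [Algebra F₀ F'] [Algebra O F'] [IsScalarTower O F₀ F']

/-- **The idempotent on one chart.** -/
theorem exists_idempotent (s : F₀) (hs : Transcendental K₀ s) [FiniteDimensional K₀⟮s⟯ F₀]
    {π : O} (hπ : Irreducible π)
    (hD : IsDedekindDomain (chartAlg O F₀ {s} ⧸ Ideal.span {algebraMap O (chartAlg O F₀ {s}) π}))
    (hnf : ¬ IsField (chartAlg O F₀ {s} ⧸ Ideal.span {algebraMap O (chartAlg O F₀ {s}) π}))
    (W : Subring F₀) [IsIntegrallyClosed W] [IsFractionRing W F₀]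
    (hW : IsGaussRing W (algebraMap O (chartAlg O F₀ {s}) π))
    {p : ℕ} (hp : p.Prime) (hpO : IsUnit ((p : ℕ) : O)) {ζ : O} (hζ : IsPrimitiveRoot ζ p)
    {f g : F₀} (hf : f ≠ 0) {t : F'} (ht : t ^ p = algebraMap F₀ F' f) (htop : F₀⟮t⟯ = ⊤)
    (hirr : Irreducible (X ^ p - C f : F₀[X]))
    (hhor : Horizontal K₀ p f) (hv : Vertical (algebraMap O (chartAlg O F₀ {s}) π) p f g) :
    (∀ z : F', IsIntegral (chartAlg O F₀ {s}) z →
        IsIntegral W (algebraMap F₀ F' (algebraMap O F₀ π)⁻¹ * z) →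
        IsIntegral (chartAlg O F₀ {s}) (algebraMap F₀ F' (algebraMap O F₀ π)⁻¹ * z)) ∧
    ∃ ε : F', IsIntegral (chartAlg O F₀ {s}) ε ∧
      IsIntegral (chartAlg O F₀ {s}) (algebraMap F₀ F' (algebraMap O F₀ π)⁻¹ * (ε ^ 2 - ε)) ∧
      IsIntegral W (algebraMap F₀ F' (algebraMap O F₀ π)⁻¹ * (ε - eModel p g t)) ∧
      ¬ IsIntegral W (algebraMap F₀ F' (algebraMap O F₀ π)⁻¹ * ε) ∧
      ¬ IsIntegral W (algebraMap F₀ F' (algebraMap O F₀ π)⁻¹ * (ε - 1)) := by
  set R := chartAlg O F₀ {s} with hR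
  set ϖ : R := algebraMap O R π with hϖ
  haveI : IsNoetherianRing R := isNoetherianRing_chartAlg (O := O) (K := K₀) s hs
  haveI : IsFractionRing R F₀ := isFractionRing_chartAlg (O := O) (K₀ := K₀) s hs
  haveI : IsIntegrallyClosed R := isIntegrallyClosed_chartAlg (O := O) (K₀ := K₀) s hs
  have hinj : Function.Injective (algebraMap R F₀) := IsFractionRing.injective R F₀
  have hinjO : Function.Injective (algebraMap O F₀) := by
    rw [IsScalarTower.algebraMap_eq O K₀ F₀]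
    exact (algebraMap K₀ F₀).injective.comp (IsFractionRing.injective O K₀)
  have hinjOR : Function.Injective (algebraMap O R) := by
    intro a b hab
    exact hinjO (congrArg (algebraMap R F₀) hab)
  have hϖF : algebraMap R F₀ ϖ = algebraMap O F₀ π := rfl
  haveI : CharZero F₀ := charZero_of_injective_algebraMap (algebraMap K₀ F₀).injective
  have hp0 : ((p : ℕ) : F₀) ≠ 0 := Nat.cast_ne_zero.2 hp.ne_zero
  -- `p⁻¹ ∈ W`
  obtain ⟨u, hu⟩ := hpO
  have hpi : ((p : ℕ) : F₀)⁻¹ ∈ W := by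
    have h1 : algebraMap O F₀ ((u⁻¹ : Oˣ) : O) = ((p : ℕ) : F₀)⁻¹ := by
      have h2 : algebraMap O F₀ ((u⁻¹ : Oˣ) : O) * ((p : ℕ) : F₀) = 1 := by
        rw [← map_natCast (algebraMap O F₀), ← hu, ← map_mul, Units.inv_mul, map_one]
      exact eq_inv_of_mul_eq_one_left h2
    rw [← h1]
    exact hW.le (algebraMap O R ((u⁻¹ : Oˣ) : O))
  have hpR : IsUnit ((p : ℕ) : R) := by
    have := (u.isUnit.map (algebraMap O R))
    rwa [hu, map_natCast] at this
  have hζR : IsPrimitiveRoot (algebraMap O R ζ) p := hζ.map_of_injective hinjOR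
  have hpW : IsUnit ((p : ℕ) : W) := by
    refine IsUnit.of_mul_eq_one (⟨_, hpi⟩ : W) (Subtype.ext ?_)
    show ((p : ℕ) : F₀) * ((p : ℕ) : F₀)⁻¹ = 1
    exact mul_inv_cancel₀ hp0
  have hζW : IsPrimitiveRoot (⟨algebraMap O F₀ ζ, hW.le (algebraMap O R ζ)⟩ : W) p := by
    refine IsPrimitiveRoot.of_map_of_injective (f := W.subtype) ?_ Subtype.val_injective
    exact hζ.map_of_injective hinjO
  have hdata : IdemData W ϖ p f g t := idemData_of_vertical hW hinj hp ht hf hv hpi hp0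
  have hloc : ∀ 𝔫 : Ideal R, 𝔫.IsMaximal → ϖ ∈ 𝔫 → ∃ η : F₀, η ≠ 0 ∧
      (∃ s r : R, s ∉ 𝔫 ∧ r ∉ 𝔫 ∧ f * algebraMap R F₀ s = η ^ p * algebraMap R F₀ r) ∧
      ∃ a b : R, ¬ ϖ ∣ b ∧
        (η - g) * algebraMap R F₀ b = algebraMap R F₀ ϖ * algebraMap R F₀ a := by
    intro 𝔫 h𝔫max h𝔫
    exact exists_root_at (K₀ := K₀) hπ hD hnf hp.pos hf hhor hv 𝔫 h𝔫
  choose b hb1 hb2 using fun k : ℕ =>
    exists_lift hinj hW hp.pos ht hdata.hg0 hdata.hg hdata.hgi hloc k
  have hlift : LiftData W ϖ g t b := ⟨hb1, hb2⟩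
  refine ⟨fun z hz hzW => ?_, eps p b t, hdata.isIntegral_eps hlift hpR, ?_, ?_, ?_, ?_⟩
  · rw [← hϖF] at hzW ⊢
    exact claimB hp hpR hζR hpW hζW ht htop hirr hW hz hzW
  · rw [← hϖF]
    exact hdata.isIntegral_eps_sq hlift hpR hζR hpW hζW htop hirr
  · rw [← hϖF]
    exact hdata.isIntegral_eps_sub hlift
  · rw [← hϖF]
    exact hdata.not_isIntegral_eps hlift hpW hζW htop hirr
  · rw [← hϖF]
    exact hdata.not_isIntegral_eps_sub_one hlift hpW hζW htop hirr

end Chart

section Final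

variable {O K₀ : Type*} [CommRing O] [IsDomain O] [IsDiscreteValuationRing O]
  [Field K₀] [CharZero K₀] [Algebra O K₀] [IsFractionRing O K₀]
variable {F₀ : Type u} [Field F₀] [Algebra K₀ F₀] [Algebra O F₀] [IsScalarTower O K₀ F₀]
variable {F' : Type*} [Field F'] [Algebra F₀ F'] [Algebra K₀ F'] [Algebra O F']
  [IsScalarTower K₀ F₀ F'] [IsScalarTower O K₀ F'] [IsScalarTower O F₀ F']

omit [IsDomain O] [IsDiscreteValuationRing O] [CharZero K₀] [IsFractionRing O K₀]
  [IsScalarTower O K₀ F₀] [Algebra K₀ F'] [IsScalarTower K₀ F₀ F'] [IsScalarTower O K₀ F'] in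
/-- Membership in `π 𝒜` for a chart `𝒜` of `F'`. -/
theorem mem_span_iff {π : O} (hπF : algebraMap O F₀ π ≠ 0) {S : Set F'} (x : chartAlg O F' S) :
    x ∈ Ideal.span {algebraMap O (chartAlg O F' S) π} ↔
      algebraMap F₀ F' (algebraMap O F₀ π)⁻¹ * (x : F') ∈ chartAlg O F' S := by
  have hcoe : ((algebraMap O (chartAlg O F' S) π : chartAlg O F' S) : F') =
      algebraMap F₀ F' (algebraMap O F₀ π) := by
    rw [← IsScalarTower.algebraMap_apply O F₀ F']; rfl
  have hπF' : algebraMap F₀ F' (algebraMap O F₀ π) ≠ 0 := by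
    rw [Ne, map_eq_zero]; exact hπF
  rw [Ideal.mem_span_singleton']
  constructor
  · rintro ⟨a, rfl⟩
    have : algebraMap F₀ F' (algebraMap O F₀ π)⁻¹ *
        ((a * algebraMap O (chartAlg O F' S) π : chartAlg O F' S) : F') = (a : F') := by
      rw [MulMemClass.coe_mul, hcoe, map_inv₀]
      field_simp
    rw [this]
    exact a.2
  · intro h
    refine ⟨⟨_, h⟩, Subtype.ext ?_⟩
    show algebraMap F₀ F' (algebraMap O F₀ π)⁻¹ * (x : F') *
      ((algebraMap O (chartAlg O F' S) π : chartAlg O F' S) : F') = x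
    rw [hcoe, map_inv₀]
    field_simp

/-- **No split cyclic cover.** -/
theorem no_split_cover (j : F₀) (hj : Transcendental K₀ j) [FiniteDimensional K₀⟮j⟯ F₀]
    {π : O} (hπ : Irreducible π)
    (hDp : IsDedekindDomain
      (chartAlg O F₀ {j} ⧸ Ideal.span {algebraMap O (chartAlg O F₀ {j}) π}))
    (hnfp : ¬ IsField (chartAlg O F₀ {j} ⧸ Ideal.span {algebraMap O (chartAlg O F₀ {j}) π}))
    (hDm : IsDedekindDomain
      (chartAlg O F₀ {j⁻¹} ⧸ Ideal.span {algebraMap O (chartAlg O F₀ {j⁻¹}) π}))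
    (hnfm : ¬ IsField (chartAlg O F₀ {j⁻¹} ⧸ Ideal.span {algebraMap O (chartAlg O F₀ {j⁻¹}) π}))
    (G : Subalgebra O F₀) (hGp : chartAlg O F₀ {j} ≤ G) (hGm : chartAlg O F₀ {j⁻¹} ≤ G)
    {Ω : Type*} [CommRing Ω] [IsDomain Ω] (Θ : G →+* Ω) (hΘπ : Θ (algebraMap O G π) = 0)
    (hΘp : ∀ x : chartAlg O F₀ {j}, Θ ⟨x, hGp x.2⟩ = 0 → algebraMap O (chartAlg O F₀ {j}) π ∣ x)
    (hΘm : ∀ x : chartAlg O F₀ {j⁻¹}, Θ ⟨x, hGm x.2⟩ = 0 →
      algebraMap O (chartAlg O F₀ {j⁻¹}) π ∣ x)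
    {p : ℕ} (hp : p.Prime) (hpO : IsUnit ((p : ℕ) : O)) {ζ : O} (hζ : IsPrimitiveRoot ζ p)
    {f g : F₀} (hf : f ≠ 0) {t : F'} (ht : t ^ p = algebraMap F₀ F' f) (htop : F₀⟮t⟯ = ⊤)
    (hirr : Irreducible (X ^ p - C f : F₀[X]))
    (halg : ∀ x : F', IsAlgebraic K₀ x → x ∈ (algebraMap K₀ F').range)
    (hhor : Horizontal K₀ p f)
    (hvp : Vertical (algebraMap O (chartAlg O F₀ {j}) π) p f g)
    (hvm : Vertical (algebraMap O (chartAlg O F₀ {j⁻¹}) π) p f g) : False := by
  classical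
  have hj0 : j ≠ 0 := fun h0 => hj (h0 ▸ isAlgebraic_zero)
  have hjinv : Transcendental K₀ j⁻¹ := fun h => hj (by simpa using h.inv)
  haveI : FiniteDimensional K₀⟮j⁻¹⟯ F₀ := by rw [adjoin_inv_eq]; infer_instance
  set Rp := chartAlg O F₀ {j} with hRp
  set Rm := chartAlg O F₀ {j⁻¹} with hRm
  set ϖp : Rp := algebraMap O Rp π with hϖp
  set ϖm : Rm := algebraMap O Rm π with hϖm
  haveI : IsNoetherianRing Rp := isNoetherianRing_chartAlg (O := O) (K := K₀) j hj
  haveI : IsFractionRing Rp F₀ := isFractionRing_chartAlg (O := O) (K₀ := K₀) j hj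
  have hinjO : Function.Injective (algebraMap O F₀) := by
    rw [IsScalarTower.algebraMap_eq O K₀ F₀]
    exact (algebraMap K₀ F₀).injective.comp (IsFractionRing.injective O K₀)
  have hπF : algebraMap O F₀ π ≠ 0 := fun h0 => hπ.ne_zero (hinjO (by rw [h0, map_zero]))
  have hϖp0 : ϖp ≠ 0 := fun h0 => hπF (by
    have := congrArg (algebraMap Rp F₀) h0
    rwa [map_zero] at this)
  haveI := hDp
  have hϖprime : Prime ϖp := by
    have : (Ideal.span {ϖp}).IsPrime := (Ideal.Quotient.isDomain_iff_prime _).1 inferInstance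
    exact (Ideal.span_singleton_prime hϖp0).1 this
  haveI hI : (Ideal.span {ϖp}).IsPrime := (Ideal.span_singleton_prime hϖp0).2 hϖprime
  -- the Gauss ring
  set W₀ := locAt (R := Rp) (F := F₀) (Ideal.span {ϖp}) with hW₀
  haveI hdvr : IsDiscreteValuationRing W₀ := isDiscreteValuationRing_locAt_span (F := F₀) hϖprime
  set W : Subring F₀ := W₀.toSubring with hWdef
  haveI : IsIntegrallyClosed W := (inferInstance : IsIntegrallyClosed W₀)
  haveI : IsFractionRing W F₀ := (inferInstance : IsFractionRing W₀ F₀)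
  have hWp : IsGaussRing W ϖp := isGaussRing_locAt (F := F₀) hϖprime
  have hval : ∀ x : F₀, x ∈ W ∨ x⁻¹ ∈ W := by
    intro x
    rcases ValuationRing.isInteger_or_isInteger W₀ x with ⟨a, ha⟩ | ⟨a, ha⟩
    · left; rw [← ha]; exact a.2
    · right; rw [← ha]; exact a.2
  have hfrac : ∀ w ∈ W, ∃ a b : Rp, ¬ ϖp ∣ b ∧ w * algebraMap Rp F₀ b = algebraMap Rp F₀ a := by
    intro w hw
    obtain ⟨a, b, hb, hab⟩ := (mem_locAt_iff (Ideal.span {ϖp}) w).1 hw
    exact ⟨a, b, fun h => hb (Ideal.mem_span_singleton.2 h), hab⟩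
  have hWm : IsGaussRing W ϖm := by
    refine isGaussRing_of_theta (R := Rp) (R' := Rm) hWp hval hfrac G.toSubring Θ
      (fun r => hGp r.2) (fun r => hGm r.2) ?_ (fun r hr => hΘp r hr) (fun r hr => hΘm r hr) rfl
    exact hΘπ
  -- the two idempotents
  obtain ⟨hclaim, εp, hεp, hεp2, hεpe, hεp0, hεp1⟩ :=
    exists_idempotent (K₀ := K₀) (F' := F') j hj hπ hDp hnfp W hWp hp hpO hζ hf ht htop hirr
      hhor hvp
  obtain ⟨-, εm, hεm, hεm2, hεme, hεm0, hεm1⟩ :=
    exists_idempotent (K₀ := K₀) (F' := F') j⁻¹ hjinv hπ hDm hnfm W hWm hp hpO hζ hf ht htop hirr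
      hhor hvm
  -- the charts of `F'`
  set j' : F' := algebraMap F₀ F' j with hj'
  have hj'0 : j' ≠ 0 := by rw [hj', Ne, map_eq_zero]; exact hj0
  have himg : algebraMap F₀ F' '' ({j} : Set F₀) = {j'} := Set.image_singleton
  have himg' : algebraMap F₀ F' '' ({j⁻¹} : Set F₀) = {j'⁻¹} := by
    rw [Set.image_singleton, map_inv₀]
  have hj't : Transcendental K₀ j' := by
    intro h
    apply hj
    have : IsAlgebraic K₀ (IsScalarTower.toAlgHom K₀ F₀ F' j) := h
    exact (isAlgebraic_algHom_iff _ (IsScalarTower.toAlgHom K₀ F₀ F').injective).1 this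
  haveI : FiniteDimensional F₀ F' := by
    have hfr := KummerClosure.finrank_eq hp ht htop hirr
    exact Module.finite_of_finrank_pos (by rw [hfr]; exact hp.pos)
  haveI : FiniteDimensional K₀⟮j'⟯ F' := finiteDimensional_adjoin_image (K₀ := K₀) j
  have hpmem : ∀ {x : F'}, IsIntegral Rp x → x ∈ chartAlg O F' {j'} := fun hx => by
    have := mem_chartAlg_of_isIntegral (O := O) ({j} : Set F₀) hx
    rwa [himg] at this
  have hmmem : ∀ {x : F'}, IsIntegral Rm x → x ∈ chartAlg O F' {j'⁻¹} := fun hx => by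
    have := mem_chartAlg_of_isIntegral (O := O) ({j⁻¹} : Set F₀) hx
    rwa [himg'] at this
  have hpW : ∀ {x : F'}, x ∈ chartAlg O F' {j'} → IsIntegral W x := fun hx => by
    rw [← himg] at hx
    exact isIntegral_subring_of_mem_chartAlg (O := O) ({j} : Set F₀) W
      (fun b hb => hWp.le ⟨b, adjoin_le_chartAlg _ hb⟩) hx
  have hmW : ∀ {x : F'}, x ∈ chartAlg O F' {j'⁻¹} → IsIntegral W x := fun hx => by
    rw [← himg'] at hx
    exact isIntegral_subring_of_mem_chartAlg (O := O) ({j⁻¹} : Set F₀) W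
      (fun b hb => hWm.le ⟨b, adjoin_le_chartAlg _ hb⟩) hx
  let ep : chartAlg O F' {j'} := ⟨εp, hpmem hεp⟩
  let em : chartAlg O F' {j'⁻¹} := ⟨εm, hmmem hεm⟩
  set πi : F' := algebraMap F₀ F' (algebraMap O F₀ π)⁻¹ with hπi
  have hne : (1 : chartAlg O F' {j'}) ∉ Ideal.span {algebraMap O (chartAlg O F' {j'}) π} := by
    rw [mem_span_iff hπF]
    intro h
    have h1 : IsIntegral W (algebraMap F₀ F' (algebraMap O F₀ π)⁻¹) := by
      have := hpW h
      rwa [OneMemClass.coe_one, mul_one] at this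
    have h2 : IsIntegral W (algebraMap O F₀ π)⁻¹ :=
      (isIntegral_algebraMap_iff (algebraMap F₀ F').injective).1 h1
    obtain ⟨w, hw⟩ := IsIntegrallyClosed.algebraMap_eq_of_integral h2
    apply hWp.not_unit
    have : algebraMap Rp F₀ ϖp = algebraMap O F₀ π := rfl
    rw [this, ← hw]
    exact w.2
  have hep : ep ^ 2 - ep ∈ Ideal.span {algebraMap O (chartAlg O F' {j'}) π} := by
    rw [mem_span_iff hπF]
    exact hpmem hεp2
  have hem : em ^ 2 - em ∈ Ideal.span {algebraMap O (chartAlg O F' {j'⁻¹}) π} := by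
    rw [mem_span_iff hπF]
    exact hmmem hεm2
  have hcompat : chartIncl (O := O) (ChartFinite.subset_pair_left j') ep -
      chartIncl (O := O) (ChartFinite.subset_pair_right j') em ∈
        Ideal.span {algebraMap O (chartAlg O F' {j', j'⁻¹}) π} := by
    rw [mem_span_iff hπF]
    show πi * (εp - εm) ∈ chartAlg O F' {j', j'⁻¹}
    -- `z = εp - εm`, `πi z` integral over `W`
    have hzW : IsIntegral W (πi * (εp - εm)) := by
      have : πi * (εp - εm) = πi * (εp - eModel p g t) - πi * (εm - eModel p g t) := by ring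
      rw [this]
      exact hεpe.sub hεme
    have hz0 : εp - εm ∈ chartAlg O F' {j', j'⁻¹} :=
      sub_mem (chartAlg_mono (ChartFinite.subset_pair_left j') (hpmem hεp))
        (chartAlg_mono (ChartFinite.subset_pair_right j') (hmmem hεm))
    have hz0' : εp - εm ∈ chartAlg O F' (insert j'⁻¹ {j'}) := by
      rwa [Set.pair_comm] at hz0
    obtain ⟨n, hn⟩ := exists_pow_mul_mem_chartAlg (O := O) (Set.mem_singleton j') hj'0 hz0'
    have h1 : IsIntegral Rp (j' ^ n * (εp - εm)) := by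
      rw [← himg] at hn
      exact isIntegral_of_mem_chartAlg (O := O) ({j} : Set F₀) hn
    have hjW : IsIntegral W j' :=
      isIntegral_algebraMap_of_mem (hWp.le ⟨j, subset_chartAlg _ (Set.mem_singleton j)⟩)
    have h2 : IsIntegral W (πi * (j' ^ n * (εp - εm))) := by
      have : πi * (j' ^ n * (εp - εm)) = j' ^ n * (πi * (εp - εm)) := by ring
      rw [this]
      exact (hjW.pow n).mul hzW
    have h3 := hpmem (hclaim _ h1 h2)
    have h4 : πi * (εp - εm) = (j'⁻¹) ^ n * (πi * (j' ^ n * (εp - εm))) := by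
      have h5 : (j'⁻¹) ^ n * j' ^ n = 1 := by
        rw [← mul_pow, inv_mul_cancel₀ hj'0, one_pow]
      calc πi * (εp - εm) = ((j'⁻¹) ^ n * j' ^ n) * (πi * (εp - εm)) := by rw [h5, one_mul]
        _ = (j'⁻¹) ^ n * (πi * (j' ^ n * (εp - εm))) := by ring
    rw [h4]
    exact mul_mem (pow_mem (subset_chartAlg _ (by simp)) n)
      (chartAlg_mono (ChartFinite.subset_pair_left j') h3)
  rcases idempotent_mod_eq_zero_or_one_chart (O := O) (K := K₀) j' hj't halg hπ hne ep em hep hem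
    hcompat with ⟨h0, -⟩ | ⟨h1, -⟩
  · rw [mem_span_iff hπF] at h0
    exact hεp0 (hpW h0)
  · rw [mem_span_iff hπF] at h1
    exact hεp1 (hpW h1)

end Final

end Fermat.Agent.N4.Cover.Main
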